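import Mathlib

/-!
# Ultralimits in complete local noetherian rings with finite residue field
-/

set_option autoImplicit false
set_option linter.style.haveILetI false

namespace Fermat.Agent.TWPatch

open IsLocalRing Filter

/-- complete noetherian local rings with finite residue field -/
class CNL (A : Type*) [CommRing A] : Prop where
  isLocal : IsLocalRing A
  isNoeth : IsNoetherianRing A
  isCompl : IsAdicComplete (maximalIdeal A) A
  finRes : Finite (ResidueField A)

attribute [instance] CNL.isLocal CNL.isNoeth CNL.isCompl CNL.finRes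

variable {A : Type*} [CommRing A] [CNL A]

variable (A) in
theorem finite_quot (k : ℕ) : Finite (A ⧸ (maximalIdeal A ^ k)) := by
  haveI : Finite (A ⧸ maximalIdeal A) := CNL.finRes (A := A)
  exact Ideal.finite_quotient_pow (IsNoetherian.noetherian _) k

theorem eq_of_forall_sub_mem {a b : A} (h : ∀ k : ℕ, a - b ∈ maximalIdeal A ^ k) : a = b := by
  have h1 : (⨅ k : ℕ, maximalIdeal A ^ k) = ⊥ := Ideal.iInf_pow_eq_bot_of_isLocalRing _
    (Ideal.IsPrime.ne_top inferInstance)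
  have h2 : a - b ∈ (⨅ k : ℕ, maximalIdeal A ^ k) := by
    rw [Submodule.mem_iInf]; exact h
  rw [h1, Ideal.mem_bot, sub_eq_zero] at h2
  exact h2

theorem exists_ulim (𝔉 : Ultrafilter ℕ) (r : ℕ → A) :
    ∃ a : A, ∀ k : ℕ, ∀ᶠ n in (𝔉 : Filter ℕ), a - r n ∈ maximalIdeal A ^ k := by
  have h1 : ∀ k : ℕ, ∃ c : A, ∀ᶠ n in (𝔉 : Filter ℕ), c - r n ∈ maximalIdeal A ^ k := by
    intro k
    haveI := finite_quot A k
    obtain ⟨c, hc⟩ := Ultrafilter.eq_pure_of_finite
      (𝔉.map (fun n => Ideal.Quotient.mk (maximalIdeal A ^ k) (r n)))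
    obtain ⟨c, rfl⟩ := Ideal.Quotient.mk_surjective c
    refine ⟨c, ?_⟩
    have h2 : {Ideal.Quotient.mk (maximalIdeal A ^ k) c} ∈
        𝔉.map (fun n => Ideal.Quotient.mk (maximalIdeal A ^ k) (r n)) := by
      rw [hc]; exact Set.mem_singleton _
    rw [Ultrafilter.mem_map] at h2
    filter_upwards [h2] with n hn
    rw [← Ideal.Quotient.eq_zero_iff_mem, map_sub, sub_eq_zero]
    exact (Set.mem_singleton_iff.1 hn).symm
  choose c hc using h1
  obtain ⟨a, ha⟩ := IsPrecomplete.prec' (I := maximalIdeal A) (f := c) (by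
    intro m n hmn
    rw [SModEq.sub_mem, smul_eq_mul, Ideal.mul_top]
    obtain ⟨i, hi1, hi2⟩ := ((hc m).and (hc n)).exists
    have := sub_mem hi1 (Ideal.pow_le_pow_right hmn hi2)
    have e : c m - c n = (c m - r i) - (c n - r i) := by ring
    rwa [← e] at this)
  refine ⟨a, fun k => ?_⟩
  filter_upwards [hc k] with n hn
  have h3 := ha k
  rw [SModEq.sub_mem, smul_eq_mul, Ideal.mul_top] at h3
  have e : a - r n = (c k - r n) - (c k - a) := by ring
  rw [e]
  exact sub_mem hn h3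

/-- the ultralimit -/
noncomputable def ulim (𝔉 : Ultrafilter ℕ) (r : ℕ → A) : A := (exists_ulim 𝔉 r).choose

theorem ulim_spec (𝔉 : Ultrafilter ℕ) (r : ℕ → A) (k : ℕ) :
    ∀ᶠ n in (𝔉 : Filter ℕ), ulim 𝔉 r - r n ∈ maximalIdeal A ^ k :=
  (exists_ulim 𝔉 r).choose_spec k

theorem eq_ulim {𝔉 : Ultrafilter ℕ} {r : ℕ → A} {a : A}
    (h : ∀ k : ℕ, ∀ᶠ n in (𝔉 : Filter ℕ), a - r n ∈ maximalIdeal A ^ k) : a = ulim 𝔉 r := by
  refine eq_of_forall_sub_mem fun k => ?_
  obtain ⟨n, h1, h2⟩ := ((h k).and (ulim_spec 𝔉 r k)).exists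
  have e : a - ulim 𝔉 r = (a - r n) - (ulim 𝔉 r - r n) := by ring
  rw [e]
  exact sub_mem h1 h2

end Fermat.Agent.TWPatch
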