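import Mathlib
import Fermat.Agent.TWPatch.ULim

/-!
# Patching of families of commutative matrix algebras by ultralimits
-/

set_option autoImplicit false
set_option linter.style.haveILetI false

namespace Fermat.Agent.TWPatch

open IsLocalRing Filter

/-- a ring homomorphism from a noetherian local ring to a finite ring kills a power of the
maximal ideal, the exponent depending only on the cardinality -/
theorem map_pow_card_eq_zero {R B : Type*} [CommRing R] [IsLocalRing R] [Ring B] [Finite B]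
    (Φ : R →+* B) {K : ℕ} (hK : Nat.card B ≤ K) {r : R} (hr : r ∈ maximalIdeal R ^ K) :
    Φ r = 0 := by
  letI : Module R B := Module.compHom B Φ
  have hsm : ∀ (a : R) (b : B), a • b = Φ a * b := fun a b => rfl
  haveI : Module.Finite R B := Module.Finite.of_finite
  have hfg : ∀ N : Submodule R B, N.FG := by
    intro N
    haveI : Finite N := inferInstance
    exact Module.Finite.iff_fg.1 (Module.Finite.of_finite)
  let N : ℕ → Submodule R B := fun j => (maximalIdeal R ^ j) • (⊤ : Submodule R B)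
  have hmono : ∀ j, N (j + 1) = maximalIdeal R • N j := by
    intro j
    change (maximalIdeal R ^ (j + 1)) • (⊤ : Submodule R B) = _
    rw [pow_succ', Submodule.mul_smul]
  have key : ∀ j, N j = ⊥ ∨ Nat.card (N j) + j ≤ Nat.card B := by
    intro j
    induction j with
    | zero =>
      right
      have : N 0 = ⊤ := by
        change (maximalIdeal R ^ 0) • (⊤ : Submodule R B) = ⊤
        rw [pow_zero, Ideal.one_eq_top, Submodule.top_smul]
      rw [this, add_zero]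
      exact Finite.card_subtype_le _
    | succ j ih =>
      rcases ih with h | h
      · left
        rw [hmono, h, Submodule.smul_bot]
      · by_cases hb : N j = ⊥
        · left
          rw [hmono, hb, Submodule.smul_bot]
        · right
          have hlt : N (j + 1) < N j := by
            refine lt_of_le_of_ne ?_ ?_
            · rw [hmono]; exact Submodule.smul_le_right
            · intro he
              apply hb
              apply Submodule.eq_bot_of_le_smul_of_le_jacobson_bot (maximalIdeal R) _ (hfg _)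
              · rw [← hmono, he]
              · exact IsLocalRing.maximalIdeal_le_jacobson _
          have hc : Nat.card (N (j + 1)) < Nat.card (N j) := by
            have := Set.ncard_lt_ncard (s := (N (j + 1) : Set B)) (t := (N j : Set B)) hlt
              (Set.toFinite _)
            exact this
          omega
  have hbot : N K = ⊥ := by
    rcases key K with h | h
    · exact h
    · exfalso
      have : 0 < Nat.card (N K) := Nat.card_pos
      omega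
  have : r • (1 : B) ∈ N K := Submodule.smul_mem_smul hr trivial
  rw [hbot, Submodule.mem_bot, hsm, mul_one] at this
  exact this

section

variable {R S : Type*} [CommRing R] [CNL R] [CommRing S] [CNL S] {d : ℕ}

/-- the map `S/𝔞 → S/(𝔪^k + 𝔞)` -/
def qmap (𝔞 : Ideal S) (k : ℕ) : S ⧸ 𝔞 →+* S ⧸ (maximalIdeal S ^ k ⊔ 𝔞) :=
  Ideal.Quotient.factor le_sup_right

theorem qmap_mk (𝔞 : Ideal S) (k : ℕ) (s : S) :
    qmap 𝔞 k (Ideal.Quotient.mk 𝔞 s) = Ideal.Quotient.mk _ s := rfl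

variable (R) (d) in
/-- uniform continuity -/
theorem exists_unif (k : ℕ) : ∃ K : ℕ, ∀ (𝔞 : Ideal S)
    (ρ : R →+* Matrix (Fin d) (Fin d) (S ⧸ 𝔞)), ∀ r ∈ maximalIdeal R ^ K,
      (qmap 𝔞 k).mapMatrix (ρ r) = 0 := by
  haveI := finite_quot S k
  refine ⟨Nat.card (Matrix (Fin d) (Fin d) (S ⧸ (maximalIdeal S ^ k))), ?_⟩
  intro 𝔞 ρ r hr
  let f : S ⧸ (maximalIdeal S ^ k) →+* S ⧸ (maximalIdeal S ^ k ⊔ 𝔞) :=
    Ideal.Quotient.factor le_sup_left
  have hf : Function.Surjective f := Ideal.Quotient.factor_surjective _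
  have hf' : Function.Surjective (f.mapMatrix (m := Fin d)) := by
    intro M
    choose g hg using hf
    exact ⟨Matrix.of fun i j => g (M i j), by ext i j; exact hg _⟩
  haveI : Finite (Matrix (Fin d) (Fin d) (S ⧸ (maximalIdeal S ^ k))) := inferInstance
  haveI : Finite (Matrix (Fin d) (Fin d) (S ⧸ (maximalIdeal S ^ k ⊔ 𝔞))) :=
    Finite.of_surjective _ hf'
  exact map_pow_card_eq_zero (((qmap 𝔞 k).mapMatrix).comp ρ)
    (Nat.card_le_card_of_surjective _ hf') hr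

variable {𝔞 : ℕ → Ideal S}

/-- `X` is the limit of the sequence `Y n` -/
def IsLim (𝔉 : Ultrafilter ℕ) (X : Matrix (Fin d) (Fin d) S)
    (Y : ∀ n, Matrix (Fin d) (Fin d) (S ⧸ 𝔞 n)) : Prop :=
  ∀ k : ℕ, ∀ᶠ n in (𝔉 : Filter ℕ),
    (Ideal.Quotient.mk (maximalIdeal S ^ k ⊔ 𝔞 n)).mapMatrix X = (qmap (𝔞 n) k).mapMatrix (Y n)

theorem exists_isLim (𝔉 : Ultrafilter ℕ) (Y : ∀ n, Matrix (Fin d) (Fin d) (S ⧸ 𝔞 n)) :
    ∃ X : Matrix (Fin d) (Fin d) S, IsLim 𝔉 X Y := by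
  choose L hL using fun n i j => Ideal.Quotient.mk_surjective (Y n i j)
  refine ⟨Matrix.of fun i j => ulim 𝔉 (fun n => L n i j), fun k => ?_⟩
  have : ∀ i j, ∀ᶠ n in (𝔉 : Filter ℕ), ulim 𝔉 (fun n => L n i j) - L n i j
      ∈ maximalIdeal S ^ k := fun i j => ulim_spec 𝔉 _ k
  have h2 := Filter.eventually_all.2 (fun i => Filter.eventually_all.2 (this i))
  filter_upwards [h2] with n hn
  ext i j
  simp only [RingHom.mapMatrix_apply, Matrix.map_apply, Matrix.of_apply]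
  rw [← hL n i j, qmap_mk, Ideal.Quotient.eq]
  exact Ideal.mem_sup_left (hn i j)

theorem IsLim.unique {𝔉 : Ultrafilter ℕ}
    (h𝔞 : ∀ k : ℕ, ∀ᶠ n in (𝔉 : Filter ℕ), 𝔞 n ≤ maximalIdeal S ^ k)
    {X X' : Matrix (Fin d) (Fin d) S}
    {Y : ∀ n, Matrix (Fin d) (Fin d) (S ⧸ 𝔞 n)} (h : IsLim 𝔉 X Y) (h' : IsLim 𝔉 X' Y) :
    X = X' := by
  ext i j
  refine eq_of_forall_sub_mem fun k => ?_
  obtain ⟨n, ⟨h1, h2⟩, h3⟩ := (((h k).and (h' k)).and (h𝔞 k)).exists
  have e := congrFun (congrFun (h1.trans h2.symm) i) j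
  simp only [RingHom.mapMatrix_apply, Matrix.map_apply] at e
  rw [Ideal.Quotient.eq, sup_eq_left.2 h3] at e
  exact e

theorem IsLim.add {𝔉 : Ultrafilter ℕ} {X X' : Matrix (Fin d) (Fin d) S}
    {Y Y' : ∀ n, Matrix (Fin d) (Fin d) (S ⧸ 𝔞 n)} (h : IsLim 𝔉 X Y) (h' : IsLim 𝔉 X' Y') :
    IsLim 𝔉 (X + X') (fun n => Y n + Y' n) := by
  intro k
  filter_upwards [h k, h' k] with n h1 h2
  rw [map_add, map_add, h1, h2]

theorem IsLim.mul {𝔉 : Ultrafilter ℕ} {X X' : Matrix (Fin d) (Fin d) S}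
    {Y Y' : ∀ n, Matrix (Fin d) (Fin d) (S ⧸ 𝔞 n)} (h : IsLim 𝔉 X Y) (h' : IsLim 𝔉 X' Y') :
    IsLim 𝔉 (X * X') (fun n => Y n * Y' n) := by
  intro k
  filter_upwards [h k, h' k] with n h1 h2
  rw [map_mul, map_mul, h1, h2]

theorem isLim_const (𝔉 : Ultrafilter ℕ) (X : Matrix (Fin d) (Fin d) S) :
    IsLim 𝔉 X (fun n => (Ideal.Quotient.mk (𝔞 n)).mapMatrix X) := by
  intro k
  refine Filter.Eventually.of_forall fun n => ?_
  rfl

theorem IsLim.congr {𝔉 : Ultrafilter ℕ} {X : Matrix (Fin d) (Fin d) S}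
    {Y Y' : ∀ n, Matrix (Fin d) (Fin d) (S ⧸ 𝔞 n)} (h : IsLim 𝔉 X Y)
    (h' : ∀ n, Y n = Y' n) : IsLim 𝔉 X Y' := by
  have : Y = Y' := funext h'
  rwa [← this]

/-- the patched homomorphism -/
noncomputable def limHom (𝔉 : Ultrafilter ℕ)
    (h𝔞 : ∀ k : ℕ, ∀ᶠ n in (𝔉 : Filter ℕ), 𝔞 n ≤ maximalIdeal S ^ k)
    (ρ : ∀ n, R →+* Matrix (Fin d) (Fin d) (S ⧸ 𝔞 n)) : R →+* Matrix (Fin d) (Fin d) S where
  toFun r := (exists_isLim 𝔉 (fun n => ρ n r)).choose
  map_one' := by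
    refine IsLim.unique h𝔞 (exists_isLim 𝔉 (fun n => ρ n 1)).choose_spec ?_
    refine (isLim_const 𝔉 1).congr fun n => ?_
    rw [map_one, map_one]
  map_zero' := by
    refine IsLim.unique h𝔞 (exists_isLim 𝔉 (fun n => ρ n 0)).choose_spec ?_
    refine (isLim_const 𝔉 0).congr fun n => ?_
    rw [map_zero, map_zero]
  map_mul' x y := by
    refine IsLim.unique h𝔞 (exists_isLim 𝔉 (fun n => ρ n (x * y))).choose_spec ?_
    refine ((exists_isLim 𝔉 (fun n => ρ n x)).choose_spec.mul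
      (exists_isLim 𝔉 (fun n => ρ n y)).choose_spec).congr fun n => ?_
    rw [map_mul]
  map_add' x y := by
    refine IsLim.unique h𝔞 (exists_isLim 𝔉 (fun n => ρ n (x + y))).choose_spec ?_
    refine ((exists_isLim 𝔉 (fun n => ρ n x)).choose_spec.add
      (exists_isLim 𝔉 (fun n => ρ n y)).choose_spec).congr fun n => ?_
    rw [map_add]

omit [CNL R] in
theorem limHom_isLim (𝔉 : Ultrafilter ℕ)
    (h𝔞 : ∀ k : ℕ, ∀ᶠ n in (𝔉 : Filter ℕ), 𝔞 n ≤ maximalIdeal S ^ k)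
    (ρ : ∀ n, R →+* Matrix (Fin d) (Fin d) (S ⧸ 𝔞 n)) (r : R) :
    IsLim 𝔉 (limHom 𝔉 h𝔞 ρ r) (fun n => ρ n r) :=
  (exists_isLim 𝔉 (fun n => ρ n r)).choose_spec

/-- limits of values at varying elements -/
theorem limHom_ulim (𝔉 : Ultrafilter ℕ)
    (h𝔞 : ∀ k : ℕ, ∀ᶠ n in (𝔉 : Filter ℕ), 𝔞 n ≤ maximalIdeal S ^ k)
    (ρ : ∀ n, R →+* Matrix (Fin d) (Fin d) (S ⧸ 𝔞 n)) (r : ℕ → R) :
    IsLim 𝔉 (limHom 𝔉 h𝔞 ρ (ulim 𝔉 r)) (fun n => ρ n (r n)) := by
  intro k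
  obtain ⟨K, hK⟩ := exists_unif R (S := S) d k
  filter_upwards [limHom_isLim 𝔉 h𝔞 ρ (ulim 𝔉 r) k, ulim_spec 𝔉 r K] with n h1 h2
  rw [h1, ← sub_eq_zero, ← map_sub, ← map_sub]
  exact hK _ _ _ h2

theorem limHom_ulim_eq {𝔉 : Ultrafilter ℕ}
    {h𝔞 : ∀ k : ℕ, ∀ᶠ n in (𝔉 : Filter ℕ), 𝔞 n ≤ maximalIdeal S ^ k}
    {ρ : ∀ n, R →+* Matrix (Fin d) (Fin d) (S ⧸ 𝔞 n)} {r : ℕ → R}
    {X : Matrix (Fin d) (Fin d) S}
    (h : ∀ n, ρ n (r n) = (Ideal.Quotient.mk (𝔞 n)).mapMatrix X) :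
    limHom 𝔉 h𝔞 ρ (ulim 𝔉 r) = X := by
  refine IsLim.unique h𝔞 (limHom_ulim 𝔉 h𝔞 ρ r) ?_
  exact (isLim_const 𝔉 X).congr fun n => (h n).symm

omit [CNL R] in
theorem limHom_eq {𝔉 : Ultrafilter ℕ}
    {h𝔞 : ∀ k : ℕ, ∀ᶠ n in (𝔉 : Filter ℕ), 𝔞 n ≤ maximalIdeal S ^ k}
    {ρ : ∀ n, R →+* Matrix (Fin d) (Fin d) (S ⧸ 𝔞 n)} {r : R}
    {X : Matrix (Fin d) (Fin d) S}
    (h : ∀ n, ρ n r = (Ideal.Quotient.mk (𝔞 n)).mapMatrix X) :
    limHom 𝔉 h𝔞 ρ r = X := by
  refine IsLim.unique h𝔞 (limHom_isLim 𝔉 h𝔞 ρ r) ?_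
  exact (isLim_const 𝔉 X).congr fun n => (h n).symm

/-- ideals of a complete noetherian local ring are closed -/
theorem mem_of_forall_mem_sup (I : Ideal S) {a : S}
    (h : ∀ k : ℕ, a ∈ maximalIdeal S ^ k ⊔ I) : a ∈ I := by
  by_cases hI : I = ⊤
  · rw [hI]; trivial
  haveI : Nontrivial (S ⧸ I) := Ideal.Quotient.nontrivial_iff.2 hI
  haveI : IsLocalRing (S ⧸ I) := IsLocalRing.of_surjective' (Ideal.Quotient.mk I)
    Ideal.Quotient.mk_surjective
  have h1 : (⨅ k : ℕ, ((maximalIdeal S).map (Ideal.Quotient.mk I)) ^ k) = ⊥ := by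
    apply Ideal.iInf_pow_eq_bot_of_isLocalRing
    intro htop
    have hle : I ≤ maximalIdeal S := IsLocalRing.le_maximalIdeal hI
    have h5 : (1 : S ⧸ I) ∈ Ideal.map (Ideal.Quotient.mk I) (maximalIdeal S) := by
      rw [htop]; trivial
    rw [Ideal.mem_map_iff_of_surjective _ Ideal.Quotient.mk_surjective] at h5
    obtain ⟨x, hx, hx1⟩ := h5
    rw [← map_one (Ideal.Quotient.mk I), Ideal.Quotient.eq] at hx1
    have h6 : (1 : S) ∈ maximalIdeal S := by
      have := sub_mem hx (hle hx1)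
      rwa [sub_sub_cancel] at this
    exact (Ideal.ne_top_iff_one _).1 (Ideal.IsPrime.ne_top inferInstance) h6
  have h2 : Ideal.Quotient.mk I a ∈
      (⨅ k : ℕ, ((maximalIdeal S).map (Ideal.Quotient.mk I)) ^ k) := by
    rw [Submodule.mem_iInf]
    intro k
    rw [← Ideal.map_pow]
    obtain ⟨x, hx, y, hy, hxy⟩ := Submodule.mem_sup.1 (h k)
    rw [← hxy, map_add, Ideal.Quotient.eq_zero_iff_mem.2 hy, add_zero]
    exact Ideal.mem_map_of_mem _ hx
  rw [h1, Ideal.mem_bot, Ideal.Quotient.eq_zero_iff_mem] at h2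
  exact h2

/-- congruences modulo a fixed ideal containing all `𝔞 n` pass to the limit -/
theorem IsLim.map_eq {𝔉 : Ultrafilter ℕ} {T : Type*} [CommRing T] (ε : S →+* T)
    {X : Matrix (Fin d) (Fin d) S} {Y : ∀ n, Matrix (Fin d) (Fin d) (S ⧸ 𝔞 n)}
    (h : IsLim 𝔉 X Y) (Z : Matrix (Fin d) (Fin d) T) (hε : Function.Surjective ε)
    (h𝔞ε : ∀ n, ∀ a ∈ 𝔞 n, ε a = 0)
    (hY : ∀ n, (Ideal.Quotient.lift (𝔞 n) ε (h𝔞ε n)).mapMatrix (Y n) = Z) :
    ε.mapMatrix X = Z := by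
  ext i j
  obtain ⟨z, hz⟩ := hε (Z i j)
  simp only [RingHom.mapMatrix_apply, Matrix.map_apply]
  rw [← hz, ← sub_eq_zero, ← map_sub, ← RingHom.mem_ker]
  apply mem_of_forall_mem_sup
  intro k
  obtain ⟨n, hn⟩ := (h k).exists
  have e := congrFun (congrFun hn i) j
  simp only [RingHom.mapMatrix_apply, Matrix.map_apply] at e
  obtain ⟨y, hy⟩ := Ideal.Quotient.mk_surjective (Y n i j)
  rw [← hy, qmap_mk, Ideal.Quotient.eq] at e
  have e2 := congrFun (congrFun (hY n) i) j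
  simp only [RingHom.mapMatrix_apply, Matrix.map_apply] at e2
  rw [← hy, Ideal.Quotient.lift_mk, ← hz] at e2
  have e3 : X i j - z = (X i j - y) + (y - z) := by ring
  rw [e3]
  refine add_mem ?_ ?_
  · have hle : 𝔞 n ≤ RingHom.ker ε := fun a ha => RingHom.mem_ker.2 (h𝔞ε n a ha)
    have hle2 : maximalIdeal S ^ k ⊔ 𝔞 n ≤ maximalIdeal S ^ k ⊔ RingHom.ker ε :=
      sup_le_sup le_rfl hle
    exact hle2 e
  · apply Ideal.mem_sup_right
    rw [RingHom.mem_ker, map_sub, e2, sub_self]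

/-- comparison of two families modulo an ideal -/
theorem IsLim.congr_mod {𝔉 : Ultrafilter ℕ}
    (h𝔞 : ∀ k : ℕ, ∀ᶠ n in (𝔉 : Filter ℕ), 𝔞 n ≤ maximalIdeal S ^ k) (J : Ideal S)
    {X X' : Matrix (Fin d) (Fin d) S} {Y Y' : ∀ n, Matrix (Fin d) (Fin d) (S ⧸ 𝔞 n)}
    (h : IsLim 𝔉 X Y) (h' : IsLim 𝔉 X' Y')
    (hY : ∀ n i j, Y n i j - Y' n i j ∈ J.map (Ideal.Quotient.mk (𝔞 n))) (i j : Fin d) :
    X i j - X' i j ∈ J := by
  apply mem_of_forall_mem_sup
  intro k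
  obtain ⟨n, ⟨hn, hn'⟩, ha⟩ := (((h k).and (h' k)).and (h𝔞 k)).exists
  have e := congrFun (congrFun hn i) j
  have e' := congrFun (congrFun hn' i) j
  simp only [RingHom.mapMatrix_apply, Matrix.map_apply] at e e'
  obtain ⟨y, hy⟩ := Ideal.Quotient.mk_surjective (Y n i j)
  obtain ⟨y', hy'⟩ := Ideal.Quotient.mk_surjective (Y' n i j)
  rw [← hy, qmap_mk, Ideal.Quotient.eq, sup_eq_left.2 ha] at e
  rw [← hy', qmap_mk, Ideal.Quotient.eq, sup_eq_left.2 ha] at e'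
  have h3 := hY n i j
  rw [← hy, ← hy', ← map_sub, Ideal.mem_map_iff_of_surjective _ Ideal.Quotient.mk_surjective]
    at h3
  obtain ⟨x, hx, hxy⟩ := h3
  rw [Ideal.Quotient.eq] at hxy
  have e3 : X i j - X' i j = (X i j - y) - (X' i j - y') + x - (x - (y - y')) := by ring
  rw [e3]
  refine sub_mem (add_mem (sub_mem ?_ ?_) ?_) ?_
  · exact Ideal.mem_sup_left e
  · exact Ideal.mem_sup_left e'
  · exact Ideal.mem_sup_right hx
  · exact Ideal.mem_sup_left (ha hxy)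

/-- continuity of local homomorphisms between complete noetherian local rings -/
theorem map_ulim_eq {T : Type*} [CommRing T] [CNL T] (θ : R →+* T) [IsLocalHom θ]
    {𝔉 : Ultrafilter ℕ} {r : ℕ → R} {t : T} (h : ∀ n, θ (r n) = t) : θ (ulim 𝔉 r) = t := by
  refine eq_of_forall_sub_mem fun k => ?_
  obtain ⟨n, hn⟩ := (ulim_spec 𝔉 r k).exists
  rw [← h n, ← map_sub]
  have h1 : (maximalIdeal R).map θ ≤ maximalIdeal T := by
    rw [Ideal.map_le_iff_le_comap]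
    intro x hx
    rw [Ideal.mem_comap]
    exact map_nonunit θ x hx
  have h2 := Ideal.mem_map_of_mem θ hn
  rw [Ideal.map_pow] at h2
  exact Ideal.pow_right_mono h1 k h2

end

end Fermat.Agent.TWPatch
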