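import Mathlib
import Fermat.Agent.TWPatch.Patch

/-!
# Supports of patched modules: lying over, dimension, Ihara avoidance
-/

set_option autoImplicit false
set_option linter.style.haveILetI false

namespace Fermat.Agent.TWPatch

open IsLocalRing Filter

section Base

variable {R S : Type*} [CommRing R] [CommRing S] {d : ℕ}

/-- every scalar matrix is in the image -/
def HasScalars (ρ : R →+* Matrix (Fin d) (Fin d) S) : Prop :=
  ∀ s : S, ∃ r : R, ρ r = Matrix.scalar (Fin d) s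

theorem scalar_mul_apply (s : S) (M : Matrix (Fin d) (Fin d) S) :
    Matrix.scalar (Fin d) s * M = s • M := by
  rw [Matrix.scalar_apply]
  ext i j
  simp [Matrix.diagonal_mul]

theorem eq_zero_of_mem_minimalPrimes [IsDomain S] (ρ : R →+* Matrix (Fin d) (Fin d) S)
    {𝔭 : Ideal R} (h𝔭 : 𝔭 ∈ (RingHom.ker ρ).minimalPrimes) {r : R} (hr : r ∈ 𝔭) {s : S}
    (hs : ρ r = Matrix.scalar (Fin d) s) : s = 0 := by
  obtain ⟨y, hy, hxy⟩ := Ideal.exists_mul_mem_of_mem_minimalPrimes h𝔭 hr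
  by_contra h0
  apply hy
  rw [RingHom.mem_ker, map_mul, hs, scalar_mul_apply] at hxy
  rw [RingHom.mem_ker]
  ext i j
  have := congrFun (congrFun hxy i) j
  simp only [Matrix.smul_apply, smul_eq_mul, Matrix.zero_apply, mul_eq_zero] at this
  simpa using this.resolve_left h0

/-- the structure map `S → R/ker ρ` -/
theorem exists_structure (ρ : R →+* Matrix (Fin d) (Fin d) S) (hρ : HasScalars ρ) :
    ∃ σ : S →+* R ⧸ RingHom.ker ρ, ∀ (s : S) (r : R),
      σ s = Ideal.Quotient.mk _ r ↔ ρ r = Matrix.scalar (Fin d) s := by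
  choose g hg using hρ
  have hinj : Function.Injective (RingHom.kerLift ρ) := RingHom.kerLift_injective ρ
  have hk : ∀ s, RingHom.kerLift ρ (Ideal.Quotient.mk _ (g s)) = Matrix.scalar (Fin d) s := by
    intro s
    rw [← hg s]
    rfl
  refine ⟨{ toFun := fun s => Ideal.Quotient.mk _ (g s)
            map_one' := ?_
            map_zero' := ?_
            map_mul' := ?_
            map_add' := ?_ }, ?_⟩
  · apply hinj; rw [hk, map_one, map_one]
  · intro x y; apply hinj; rw [map_mul, hk, hk, hk, map_mul]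
  · apply hinj; rw [hk, map_zero, map_zero]
  · intro x y; apply hinj; rw [map_add, hk, hk, hk, map_add]
  · intro s r
    change Ideal.Quotient.mk _ (g s) = Ideal.Quotient.mk _ r ↔ _
    rw [← hinj.eq_iff, hk]
    exact eq_comm

theorem structure_isIntegral (ρ : R →+* Matrix (Fin d) (Fin d) S)
    {σ : S →+* R ⧸ RingHom.ker ρ} (hσ : ∀ (s : S) (r : R),
      σ s = Ideal.Quotient.mk _ r ↔ ρ r = Matrix.scalar (Fin d) s) : σ.IsIntegral := by
  intro x
  obtain ⟨r, rfl⟩ := Ideal.Quotient.mk_surjective x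
  refine ⟨(ρ r).charpoly, Matrix.charpoly_monic _, ?_⟩
  have hinj : Function.Injective (RingHom.kerLift ρ) := RingHom.kerLift_injective ρ
  apply hinj
  rw [map_zero, Polynomial.hom_eval₂]
  have hc : (RingHom.kerLift ρ).comp σ = Matrix.scalar (Fin d) := by
    ext1 s
    obtain ⟨y, hy⟩ := Ideal.Quotient.mk_surjective (σ s)
    rw [RingHom.comp_apply, ← hy]
    exact (hσ s y).1 hy.symm
  rw [hc]
  change Polynomial.eval₂ (algebraMap S (Matrix (Fin d) (Fin d) S)) (ρ r) _ = 0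
  rw [← Polynomial.aeval_def]
  exact Matrix.aeval_self_charpoly _

/-- lying over with going up for minimal primes of the kernel -/
theorem exists_over [IsDomain S] (ρ : R →+* Matrix (Fin d) (Fin d) S) (hρ : HasScalars ρ)
    {𝔭 : Ideal R} (h𝔭 : 𝔭 ∈ (RingHom.ker ρ).minimalPrimes) (𝔶 : Ideal S) [𝔶.IsPrime] :
    ∃ P : Ideal R, P.IsPrime ∧ 𝔭 ≤ P ∧ ∀ (r : R) (s : S),
      ρ r = Matrix.scalar (Fin d) s → (r ∈ P ↔ s ∈ 𝔶) := by
  obtain ⟨σ, hσ⟩ := exists_structure ρ hρ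
  have hint := structure_isIntegral ρ hσ
  letI : Algebra S (R ⧸ RingHom.ker ρ) := σ.toAlgebra
  haveI : Algebra.IsIntegral S (R ⧸ RingHom.ker ρ) := ⟨hint⟩
  haveI := h𝔭.1.1
  have hle : RingHom.ker ρ ≤ 𝔭 := h𝔭.1.2
  let 𝔭' : Ideal (R ⧸ RingHom.ker ρ) := 𝔭.map (Ideal.Quotient.mk _)
  haveI : 𝔭'.IsPrime := Ideal.map_isPrime_of_surjective Ideal.Quotient.mk_surjective
    (by rw [Ideal.mk_ker]; exact hle)
  have hmem : ∀ r : R, Ideal.Quotient.mk (RingHom.ker ρ) r ∈ 𝔭' ↔ r ∈ 𝔭 := by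
    intro r
    constructor
    · intro h
      obtain ⟨x, hx, hxr⟩ := (Ideal.mem_map_iff_of_surjective _
        Ideal.Quotient.mk_surjective).1 h
      rw [Ideal.Quotient.eq] at hxr
      have := sub_mem hx (hle hxr)
      rwa [sub_sub_cancel] at this
    · exact fun h => Ideal.mem_map_of_mem _ h
  obtain ⟨Q, hQ1, hQ2, hQ3⟩ := Ideal.exists_ideal_over_prime_of_isIntegral_of_isPrime 𝔶 𝔭' (by
    intro s hs
    rw [Ideal.mem_comap] at hs
    change σ s ∈ 𝔭' at hs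
    obtain ⟨r, hr⟩ := Ideal.Quotient.mk_surjective (σ s)
    rw [← hr, hmem] at hs
    rw [eq_zero_of_mem_minimalPrimes ρ h𝔭 hs ((hσ s r).1 hr.symm)]
    exact zero_mem _)
  refine ⟨Q.comap (Ideal.Quotient.mk _), Ideal.comap_isPrime _ _, ?_, ?_⟩
  · intro r hr
    rw [Ideal.mem_comap]
    exact hQ1 ((hmem r).2 hr)
  · intro r s hrs
    rw [Ideal.mem_comap, ← (hσ s r).2 hrs]
    rw [← hQ3, Ideal.mem_comap]
    rfl

/-- chains of primes starting at a minimal prime of the kernel -/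
theorem exists_chain [IsDomain S] (ρ : R →+* Matrix (Fin d) (Fin d) S) (hρ : HasScalars ρ)
    {𝔭 : Ideal R} (h𝔭 : 𝔭 ∈ (RingHom.ker ρ).minimalPrimes)
    (l : LTSeries (PrimeSpectrum S)) (hl : l.head.asIdeal = ⊥) :
    ∃ L : LTSeries (PrimeSpectrum R), L.length = l.length ∧ L.head.asIdeal = 𝔭 := by
  obtain ⟨σ, hσ⟩ := exists_structure ρ hρ
  have hint := structure_isIntegral ρ hσ
  letI : Algebra S (R ⧸ RingHom.ker ρ) := σ.toAlgebra
  haveI : Algebra.IsIntegral S (R ⧸ RingHom.ker ρ) := ⟨hint⟩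
  haveI : Algebra.HasGoingUp S (R ⧸ RingHom.ker ρ) := Algebra.HasGoingUp.of_isIntegral
  haveI := h𝔭.1.1
  have hle : RingHom.ker ρ ≤ 𝔭 := h𝔭.1.2
  let 𝔭' : Ideal (R ⧸ RingHom.ker ρ) := 𝔭.map (Ideal.Quotient.mk _)
  haveI : 𝔭'.IsPrime := Ideal.map_isPrime_of_surjective Ideal.Quotient.mk_surjective
    (by rw [Ideal.mk_ker]; exact hle)
  have hmem : ∀ r : R, Ideal.Quotient.mk (RingHom.ker ρ) r ∈ 𝔭' ↔ r ∈ 𝔭 := by
    intro r
    constructor
    · intro h
      obtain ⟨x, hx, hxr⟩ := (Ideal.mem_map_iff_of_surjective _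
        Ideal.Quotient.mk_surjective).1 h
      rw [Ideal.Quotient.eq] at hxr
      have := sub_mem hx (hle hxr)
      rwa [sub_sub_cancel] at this
    · exact fun h => Ideal.mem_map_of_mem _ h
  haveI : 𝔭'.LiesOver l.head.asIdeal := by
    constructor
    rw [hl]
    ext s
    rw [Ideal.mem_bot, Ideal.under_def, Ideal.mem_comap]
    constructor
    · rintro rfl
      rw [map_zero]; exact zero_mem _
    · intro hs
      change σ s ∈ 𝔭' at hs
      obtain ⟨r, hr⟩ := Ideal.Quotient.mk_surjective (σ s)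
      rw [← hr, hmem] at hs
      exact eq_zero_of_mem_minimalPrimes ρ h𝔭 hs ((hσ s r).1 hr.symm)
  obtain ⟨L, hL1, hL2, -⟩ := Ideal.exists_ltSeries_of_hasGoingUp (S := R ⧸ RingHom.ker ρ) l 𝔭'
  have hmono : StrictMono (PrimeSpectrum.comap (Ideal.Quotient.mk (RingHom.ker ρ))) := by
    intro a b hab
    refine lt_of_le_of_ne ?_ ?_
    · exact fun x hx => hab.le hx
    · intro h
      exact hab.ne (PrimeSpectrum.comap_injective_of_surjective _
        Ideal.Quotient.mk_surjective h)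
  refine ⟨L.map _ hmono, hL1, ?_⟩
  rw [LTSeries.head_map, hL2]
  ext r
  rw [PrimeSpectrum.comap_asIdeal, Ideal.mem_comap]
  exact hmem r

end Base

section Dim

variable {R S : Type*} [CommRing R] [CommRing S] {d : ℕ}

/-- a longest chain of primes in a domain of finite dimension starts at zero -/
theorem exists_ltSeries_head_bot [IsDomain S] {N : ℕ} (hN : ringKrullDim S = N) :
    ∃ l : LTSeries (PrimeSpectrum S), l.length = N ∧ l.head.asIdeal = ⊥ := by
  obtain ⟨l, hl⟩ := (Order.le_krullDim_iff (α := PrimeSpectrum S) (n := N)).1 (le_of_eq hN.symm)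
  refine ⟨l, hl, ?_⟩
  by_contra hne
  let b : PrimeSpectrum S := ⟨⊥, Ideal.isPrime_bot⟩
  have hlt : b < l.head := by
    refine lt_of_le_of_ne ?_ ?_
    · change (⊥ : Ideal S) ≤ l.head.asIdeal
      exact bot_le
    · intro h
      apply hne
      rw [← h]
  have h2 := Order.LTSeries.length_le_krullDim (l.cons b hlt)
  have h3 : ((l.cons b hlt).length : WithBot ℕ∞) ≤ (N : WithBot ℕ∞) := by
    rw [← hN]; exact h2
  have h4 : (l.cons b hlt).length ≤ N := by exact_mod_cast h3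
  have h5 : (l.cons b hlt).length = l.length + 1 := RelSeries.cons_length _ _ _
  omega

/-- a chain of primes in `R` starting at `𝔭`, strictly above `𝔭'`, bounds `dim R/𝔭'` below -/
theorem le_ringKrullDim_of_chain (L : LTSeries (PrimeSpectrum R)) {𝔭' : Ideal R} [𝔭'.IsPrime]
    (hlt : 𝔭' < L.head.asIdeal) :
    ((L.length + 1 : ℕ) : WithBot ℕ∞) ≤ ringKrullDim (R ⧸ 𝔭') := by
  have hle : ∀ i, 𝔭' ≤ (L i).asIdeal := by
    intro i
    refine hlt.le.trans ?_
    exact LTSeries.head_le L i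
  rw [ringKrullDim_quotient]
  let Z := PrimeSpectrum.zeroLocus (R := R) (𝔭' : Set R)
  let L' : LTSeries Z :=
    { length := L.length
      toFun := fun i => ⟨L i, hle i⟩
      step := fun i => L.step i }
  let b : Z := ⟨⟨𝔭', inferInstance⟩, le_refl (𝔭' : Set R)⟩
  have hb : b < L'.head := by
    change (⟨𝔭', inferInstance⟩ : PrimeSpectrum R) < L.head
    exact hlt
  have h2 := Order.LTSeries.length_le_krullDim (L'.cons b hb)
  have h5 : (L'.cons b hb).length = L.length + 1 := RelSeries.cons_length _ _ _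
  rw [← h5]
  exact h2

/-- minimal primes of the kernel are minimal over `I` -/
theorem mem_minimalPrimes_of_dim [IsDomain S] (ρ : R →+* Matrix (Fin d) (Fin d) S)
    (hρ : HasScalars ρ) {N : ℕ} (hN : ringKrullDim S = N) {I : Ideal R}
    (hI : I ≤ RingHom.ker ρ)
    (hdim : ∀ 𝔭' ∈ I.minimalPrimes, ringKrullDim (R ⧸ 𝔭') ≤ N)
    {𝔭 : Ideal R} (h𝔭 : 𝔭 ∈ (RingHom.ker ρ).minimalPrimes) : 𝔭 ∈ I.minimalPrimes := by
  haveI := h𝔭.1.1
  obtain ⟨𝔭', h1, h2⟩ := Ideal.exists_minimalPrimes_le (hI.trans h𝔭.1.2)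
  rcases eq_or_lt_of_le h2 with h | h
  · rwa [← h]
  · exfalso
    haveI := h1.1.1
    obtain ⟨l, hl1, hl2⟩ := exists_ltSeries_head_bot hN
    obtain ⟨L, hL1, hL2⟩ := exists_chain ρ hρ h𝔭 l hl2
    have h3 := le_ringKrullDim_of_chain L (𝔭' := 𝔭') (by rw [hL2]; exact h)
    have h4 := h3.trans (hdim 𝔭' h1)
    rw [hL1, hl1] at h4
    have : N + 1 ≤ N := by exact_mod_cast h4
    omega

/-- Cayley--Hamilton: if the entries of `ρ r` lie in `J` and elements with scalar value in `J`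
lie in the prime `P ⊇ ker ρ` then `r ∈ P` -/
theorem mem_of_entries_mem (ρ : R →+* Matrix (Fin d) (Fin d) S)
    (hρ : HasScalars ρ) (J : Ideal S) (P : Ideal R) [P.IsPrime] (hP : RingHom.ker ρ ≤ P)
    (hJ : ∀ (x : R) (s : S), ρ x = Matrix.scalar (Fin d) s → s ∈ J → x ∈ P)
    {r : R} (hr : ∀ i j, ρ r i j ∈ J) : r ∈ P := by
  have hch := Matrix.aeval_self_charpoly (ρ r)
  have hmon := Matrix.charpoly_monic (ρ r)
  set p := (ρ r).charpoly with hp
  have hmod : p.map (Ideal.Quotient.mk J) = Polynomial.X ^ d := by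
    rw [hp, ← Matrix.charpoly_map]
    have h0 : (ρ r).map (Ideal.Quotient.mk J) = 0 := by
      ext i j
      rw [Matrix.map_apply, Matrix.zero_apply]
      exact Ideal.Quotient.eq_zero_iff_mem.2 (hr i j)
    rw [h0, Matrix.charpoly_zero, Fintype.card_fin]
  have hcoeff : ∀ i < d, p.coeff i ∈ J := by
    intro i hi
    have := congrArg (fun q => Polynomial.coeff q i) hmod
    simp only [Polynomial.coeff_map, Polynomial.coeff_X_pow] at this
    rw [if_neg hi.ne] at this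
    exact Ideal.Quotient.eq_zero_iff_mem.1 this
  by_cases hd : Nontrivial S
  · have hdeg : p.natDegree = d := by
      rw [hp, Matrix.charpoly_natDegree_eq_dim, Fintype.card_fin]
    choose g hg using hρ
    have hsum : r ^ d + ∑ i ∈ Finset.range d, g (p.coeff i) * r ^ i ∈ RingHom.ker ρ := by
      rw [RingHom.mem_ker, map_add, map_pow, map_sum]
      rw [Polynomial.aeval_eq_sum_range, hdeg, Finset.sum_range_succ] at hch
      have hlead : p.coeff d = 1 := by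
        have := hmon.coeff_natDegree
        rwa [hdeg] at this
      rw [hlead, one_smul, add_comm] at hch
      rw [← hch]
      congr 1
      refine Finset.sum_congr rfl fun i _ => ?_
      rw [map_mul, map_pow, hg, scalar_mul_apply]
    have hsum2 : ∑ i ∈ Finset.range d, g (p.coeff i) * r ^ i ∈ P :=
      Ideal.sum_mem _ fun i hi => Ideal.mul_mem_right _ _
        (hJ _ _ (hg _) (hcoeff i (Finset.mem_range.1 hi)))
    have h4 : r ^ d ∈ P := by
      have := sub_mem (hP hsum) hsum2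
      rwa [add_sub_cancel_right] at this
    exact Ideal.IsPrime.mem_of_pow_mem inferInstance _ h4
  · rw [not_nontrivial_iff_subsingleton] at hd
    apply hP
    rw [RingHom.mem_ker]
    ext i j
    exact Subsingleton.elim _ _

end Dim

section Avoidance

variable {R S : Type*} [CommRing R] [CommRing S] [IsDomain S] {d : ℕ}

theorem ker_ne_top [NeZero d] (ρ : R →+* Matrix (Fin d) (Fin d) S) : RingHom.ker ρ ≠ ⊤ := by
  rw [Ideal.ne_top_iff_one, RingHom.mem_ker, map_one]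
  intro h
  have := congrFun (congrFun h 0) 0
  simp at this

/-- the irreducible case: if `I ≤ ker ρ` has a unique minimal prime and the dimension is
bounded by `dim S`, the kernel is contained in every prime containing `I` -/
theorem ker_le_of_unique [NeZero d] (ρ : R →+* Matrix (Fin d) (Fin d) S)
    (hρ : HasScalars ρ) {N : ℕ} (hN : ringKrullDim S = N) {I : Ideal R}
    (hI : I ≤ RingHom.ker ρ)
    (hdim : ∀ 𝔭' ∈ I.minimalPrimes, ringKrullDim (R ⧸ 𝔭') ≤ N)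
    (huniq : ∀ 𝔭 ∈ I.minimalPrimes, ∀ 𝔮 ∈ I.minimalPrimes, 𝔭 = 𝔮)
    (Q : Ideal R) [Q.IsPrime] (hQ : I ≤ Q) : RingHom.ker ρ ≤ Q := by
  obtain ⟨M, hM, hM2⟩ := Ideal.exists_le_maximal _ (ker_ne_top ρ)
  haveI := hM.isPrime
  obtain ⟨𝔭, h𝔭, -⟩ := Ideal.exists_minimalPrimes_le hM2
  have h𝔭' := mem_minimalPrimes_of_dim ρ hρ hN hI hdim h𝔭
  obtain ⟨𝔮, h𝔮, h𝔮Q⟩ := Ideal.exists_minimalPrimes_le hQ
  rw [huniq 𝔮 h𝔮 𝔭 h𝔭'] at h𝔮Q
  exact h𝔭.1.2.trans h𝔮Q

/-- the case where every minimal prime of `I` is contained in `Q` -/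
theorem ker_le_of_forall [NeZero d] (ρ : R →+* Matrix (Fin d) (Fin d) S)
    (hρ : HasScalars ρ) {N : ℕ} (hN : ringKrullDim S = N) {I : Ideal R}
    (hI : I ≤ RingHom.ker ρ)
    (hdim : ∀ 𝔭' ∈ I.minimalPrimes, ringKrullDim (R ⧸ 𝔭') ≤ N)
    (Q : Ideal R) (hQ : ∀ 𝔭 ∈ I.minimalPrimes, 𝔭 ≤ Q) : RingHom.ker ρ ≤ Q := by
  obtain ⟨M, hM, hM2⟩ := Ideal.exists_le_maximal _ (ker_ne_top ρ)
  haveI := hM.isPrime
  obtain ⟨𝔭, h𝔭, -⟩ := Ideal.exists_minimalPrimes_le hM2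
  exact h𝔭.1.2.trans (hQ 𝔭 (mem_minimalPrimes_of_dim ρ hρ hN hI hdim h𝔭))

omit [IsDomain S] in
/-- transfer of a prime in the support between two families congruent modulo `λ` -/
theorem ker_le_of_congr (ρ ρ' : R →+* Matrix (Fin d) (Fin d) S) (hρ' : HasScalars ρ')
    (J : Ideal S) (hcongr : ∀ r i j, ρ r i j - ρ' r i j ∈ J)
    (Q : Ideal R) [Q.IsPrime] (hQ : RingHom.ker ρ' ≤ Q)
    (hJ : ∀ (x : R) (s : S), ρ' x = Matrix.scalar (Fin d) s → s ∈ J → x ∈ Q) :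
    RingHom.ker ρ ≤ Q := by
  intro r hr
  refine mem_of_entries_mem ρ' hρ' J Q hQ hJ fun i j => ?_
  have h1 := hcongr r i j
  rw [RingHom.mem_ker.1 hr, Matrix.zero_apply, zero_sub] at h1
  exact (neg_mem_iff).1 h1

/-- Ihara avoidance, abstract form: the component `𝔭` of `Spec R/I¹` lies in the support of the
patched module of type `1`. -/
theorem avoid [NeZero d] (ρ₁ ρ₂ : R →+* Matrix (Fin d) (Fin d) S)
    (h₁ : HasScalars ρ₁) (h₂ : HasScalars ρ₂)
    (J : Ideal S) (hcongr : ∀ r i j, ρ₁ r i j - ρ₂ r i j ∈ J)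
    {N : ℕ} (hN : ringKrullDim S = N) {I₁ I₂ : Ideal R}
    (hI₁ : I₁ ≤ RingHom.ker ρ₁) (hI₂ : I₂ ≤ RingHom.ker ρ₂)
    (hdim₁ : ∀ 𝔭' ∈ I₁.minimalPrimes, ringKrullDim (R ⧸ 𝔭') ≤ N)
    (hdim₂ : ∀ 𝔭' ∈ I₂.minimalPrimes, ringKrullDim (R ⧸ 𝔭') ≤ N)
    (huniq : ∀ 𝔭 ∈ I₂.minimalPrimes, ∀ 𝔮 ∈ I₂.minimalPrimes, 𝔭 = 𝔮)
    (𝔭 Q : Ideal R) [Q.IsPrime]
    (hJ : ∀ (x : R) (s : S), ρ₂ x = Matrix.scalar (Fin d) s → s ∈ J → x ∈ Q)
    (hQ₂ : I₂ ≤ Q) (hQ : ∀ 𝔭' ∈ I₁.minimalPrimes, 𝔭' ≤ Q → 𝔭' = 𝔭) :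
    𝔭 ∈ (RingHom.ker ρ₁).minimalPrimes := by
  have h3 : RingHom.ker ρ₂ ≤ Q := ker_le_of_unique ρ₂ h₂ hN hI₂ hdim₂ huniq Q hQ₂
  have h4 : RingHom.ker ρ₁ ≤ Q := ker_le_of_congr ρ₁ ρ₂ h₂ J hcongr Q h3 hJ
  obtain ⟨𝔮, h𝔮, h𝔮Q⟩ := Ideal.exists_minimalPrimes_le h4
  have h𝔮' := mem_minimalPrimes_of_dim ρ₁ h₁ hN hI₁ hdim₁ h𝔮
  rw [← hQ 𝔮 h𝔮' h𝔮Q]
  exact h𝔮

/-- existence of a characteristic zero point on a component in the support -/
theorem exists_point (ρ : R →+* Matrix (Fin d) (Fin d) S)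
    (hρ : HasScalars ρ) {𝔭 : Ideal R} (h𝔭 : 𝔭 ∈ (RingHom.ker ρ).minimalPrimes)
    {O : Type*} [CommRing O] [IsDomain O] (ε : S →+* O) :
    ∃ P : Ideal R, P.IsPrime ∧ 𝔭 ≤ P ∧ (∀ r, ε.mapMatrix (ρ r) = 0 → r ∈ P) ∧
      ∀ (r : R) (s : S), ρ r = Matrix.scalar (Fin d) s → (r ∈ P ↔ ε s = 0) := by
  haveI : (RingHom.ker ε).IsPrime := RingHom.ker_isPrime ε
  obtain ⟨P, hP1, hP2, hP3⟩ := exists_over ρ hρ h𝔭 (RingHom.ker ε)
  refine ⟨P, hP1, hP2, ?_, ?_⟩
  · intro r hr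
    refine mem_of_entries_mem ρ hρ (RingHom.ker ε) P (h𝔭.1.2.trans hP2)
      (fun x s hxs hs => (hP3 x s hxs).2 hs) fun i j => ?_
    have := congrFun (congrFun hr i) j
    simpa [RingHom.mem_ker] using this
  · intro r s hrs
    rw [hP3 r s hrs, RingHom.mem_ker]

end Avoidance

end Fermat.Agent.TWPatch
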