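import Mathlib
import Fermat.Agent.TWPatch.Avoid

/-!
# Patching data and the main conclusions (Ihara avoidance, minimal case)
-/

set_option autoImplicit false
set_option linter.style.haveILetI false

namespace Fermat.Agent.TWPatch

open IsLocalRing Filter

section

variable {𝓡 S O : Type*} [CommRing 𝓡] [CNL 𝓡] [CommRing S] [CNL S] [CommRing O] {d : ℕ}

/-- the identification `S/ker π ≃ B` -/
noncomputable def quotEquiv {B : Type*} [CommRing B] (π : S →+* B)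
    (hπ : Function.Surjective π) : S ⧸ RingHom.ker π ≃+* B :=
  RingHom.quotientKerEquivOfSurjective hπ

omit [CNL S] in
theorem quotEquiv_mk {B : Type*} [CommRing B] (π : S →+* B)
    (hπ : Function.Surjective π) (s : S) :
    quotEquiv π hπ (Ideal.Quotient.mk _ s) = π s := rfl

variable {B : ℕ → Type*} [∀ n, CommRing (B n)] (π : ∀ n, S →+* B n)
  (hπ : ∀ n, Function.Surjective (π n))
  (hker : ∀ k : ℕ, ∃ n₀, ∀ n ≥ n₀, RingHom.ker (π n) ≤ maximalIdeal S ^ k)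

/-- the standard ultrafilter -/
noncomputable def UF : Ultrafilter ℕ := Filter.hyperfilter ℕ

include hker in
theorem ker_eventually (k : ℕ) :
    ∀ᶠ n in (UF : Filter ℕ), RingHom.ker (π n) ≤ maximalIdeal S ^ k := by
  obtain ⟨n₀, h⟩ := hker k
  have h1 : ∀ᶠ n in Filter.atTop, RingHom.ker (π n) ≤ maximalIdeal S ^ k :=
    Filter.eventually_atTop.2 ⟨n₀, h⟩
  exact h1.filter_mono (Nat.hyperfilter_le_atTop)

/-- transported level homomorphism -/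
noncomputable def lvl (X : ∀ n, 𝓡 →+* Matrix (Fin d) (Fin d) (B n)) (n : ℕ) :
    𝓡 →+* Matrix (Fin d) (Fin d) (S ⧸ RingHom.ker (π n)) :=
  ((quotEquiv (π n) (hπ n)).symm.toRingHom.mapMatrix).comp (X n)

omit [CNL 𝓡] [CNL S] in
theorem lvl_apply (X : ∀ n, 𝓡 →+* Matrix (Fin d) (Fin d) (B n)) (n : ℕ) (r : 𝓡) (i j : Fin d) :
    lvl π hπ X n r i j = (quotEquiv (π n) (hπ n)).symm (X n r i j) := rfl

/-- the patched homomorphism -/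
noncomputable def patched (X : ∀ n, 𝓡 →+* Matrix (Fin d) (Fin d) (B n)) :
    𝓡 →+* Matrix (Fin d) (Fin d) S :=
  limHom UF (ker_eventually π hker) (lvl π hπ X)

theorem patched_hasScalars (X : ∀ n, 𝓡 →+* Matrix (Fin d) (Fin d) (B n))
    (hX : ∀ n s, ∃ r, X n r = Matrix.scalar (Fin d) (π n s)) :
    HasScalars (patched π hπ hker X) := by
  intro s
  choose r hr using fun n => hX n s
  refine ⟨ulim UF r, limHom_ulim_eq fun n => ?_⟩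
  ext i j
  rw [lvl_apply, hr n]
  rw [RingEquiv.symm_apply_eq]
  simp only [Matrix.scalar_apply, RingHom.mapMatrix_apply, Matrix.map_apply]
  by_cases hij : i = j
  · subst hij
    rw [Matrix.diagonal_apply_eq, Matrix.diagonal_apply_eq, quotEquiv_mk]
  · rw [Matrix.diagonal_apply_ne _ hij, Matrix.diagonal_apply_ne _ hij, map_zero, map_zero]

omit [CNL 𝓡] in
theorem patched_eq_scalar (X : ∀ n, 𝓡 →+* Matrix (Fin d) (Fin d) (B n)) {r : 𝓡} {s : S}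
    (hX : ∀ n, X n r = Matrix.scalar (Fin d) (π n s)) :
    patched π hπ hker X r = Matrix.scalar (Fin d) s := by
  refine limHom_eq fun n => ?_
  ext i j
  rw [lvl_apply, hX n]
  rw [RingEquiv.symm_apply_eq]
  simp only [Matrix.scalar_apply, RingHom.mapMatrix_apply, Matrix.map_apply]
  by_cases hij : i = j
  · subst hij
    rw [Matrix.diagonal_apply_eq, Matrix.diagonal_apply_eq, quotEquiv_mk]
  · rw [Matrix.diagonal_apply_ne _ hij, Matrix.diagonal_apply_ne _ hij, map_zero, map_zero]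

omit [CNL 𝓡] in
theorem patched_eq_zero (X : ∀ n, 𝓡 →+* Matrix (Fin d) (Fin d) (B n)) {r : 𝓡}
    (hX : ∀ n, X n r = 0) : patched π hπ hker X r = 0 := by
  refine limHom_eq fun n => ?_
  ext i j
  rw [lvl_apply, hX n, map_zero, Matrix.zero_apply, Matrix.zero_apply, map_zero]

omit [CNL 𝓡] in
theorem patched_map (X : ∀ n, 𝓡 →+* Matrix (Fin d) (Fin d) (B n))
    (ε : S →+* O) (hε : Function.Surjective ε) (εB : ∀ n, B n →+* O)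
    (hεB : ∀ n, (εB n).comp (π n) = ε) (X₀ : 𝓡 →+* Matrix (Fin d) (Fin d) O)
    (hX₀ : ∀ n r, (εB n).mapMatrix (X n r) = X₀ r) (r : 𝓡) :
    ε.mapMatrix (patched π hπ hker X r) = X₀ r := by
  refine (limHom_isLim UF (ker_eventually π hker) (lvl π hπ X) r).map_eq ε _ hε
    (fun n a ha => ?_) (fun n => ?_)
  · rw [RingHom.mem_ker] at ha
    rw [← hεB n, RingHom.comp_apply, ha, map_zero]
  · rw [← hX₀ n r]
    ext i j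
    simp only [RingHom.mapMatrix_apply, Matrix.map_apply]
    rw [lvl_apply]
    obtain ⟨s, hs⟩ := hπ n (X n r i j)
    rw [← hs, ← quotEquiv_mk (π n) (hπ n) s, RingEquiv.symm_apply_apply, Ideal.Quotient.lift_mk,
      quotEquiv_mk, ← hεB n, RingHom.comp_apply]

omit [CNL 𝓡] in
theorem patched_congr (X₁ X₂ : ∀ n, 𝓡 →+* Matrix (Fin d) (Fin d) (B n)) (J : Ideal S)
    (h : ∀ n r i j, X₁ n r i j - X₂ n r i j ∈ J.map (π n)) (r : 𝓡) (i j : Fin d) :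
    patched π hπ hker X₁ r i j - patched π hπ hker X₂ r i j ∈ J := by
  refine IsLim.congr_mod (ker_eventually π hker) J
    (limHom_isLim UF (ker_eventually π hker) (lvl π hπ X₁) r)
    (limHom_isLim UF (ker_eventually π hker) (lvl π hπ X₂) r) (fun n i j => ?_) i j
  rw [lvl_apply, lvl_apply, ← map_sub]
  have h1 := h n r i j
  rw [Ideal.mem_map_iff_of_surjective _ (hπ n)] at h1
  obtain ⟨x, hx, hx1⟩ := h1
  rw [← hx1, ← quotEquiv_mk (π n) (hπ n) x, RingEquiv.symm_apply_apply]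
  exact Ideal.mem_map_of_mem _ hx

end

section Final

variable {𝓡 S O : Type*} [CommRing 𝓡] [CNL 𝓡] [CommRing S] [CNL S] [IsDomain S]
  [CommRing O] [IsDomain O] {d : ℕ} [NeZero d]
variable {B : ℕ → Type*} [∀ n, CommRing (B n)]

/-- Ihara avoidance: the component `𝔭` is in the support of the patched module. -/
theorem mem_minimalPrimes_patched
    (π : ∀ n, S →+* B n) (hπ : ∀ n, Function.Surjective (π n))
    (hker : ∀ k : ℕ, ∃ n₀, ∀ n ≥ n₀, RingHom.ker (π n) ≤ maximalIdeal S ^ k)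
    {N : ℕ} (hN : ringKrullDim S = N)
    (X₁ X₂ : ∀ n, 𝓡 →+* Matrix (Fin d) (Fin d) (B n))
    (h₁ : ∀ n s, ∃ r, X₁ n r = Matrix.scalar (Fin d) (π n s))
    (h₂ : ∀ n s, ∃ r, X₂ n r = Matrix.scalar (Fin d) (π n s))
    (lamS : S) (lam : 𝓡) (hlam₂ : ∀ n, X₂ n lam = Matrix.scalar (Fin d) (π n lamS))
    (hcongr : ∀ n r i j, ∃ b, X₁ n r i j - X₂ n r i j = π n lamS * b)
    (I₁ I₂ : Ideal 𝓡) (hI₁ : ∀ n, ∀ r ∈ I₁, X₁ n r = 0) (hI₂ : ∀ n, ∀ r ∈ I₂, X₂ n r = 0)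
    (hdim₁ : ∀ 𝔭' ∈ I₁.minimalPrimes, ringKrullDim (𝓡 ⧸ 𝔭') ≤ N)
    (hdim₂ : ∀ 𝔭' ∈ I₂.minimalPrimes, ringKrullDim (𝓡 ⧸ 𝔭') ≤ N)
    (huniq : ∀ 𝔭 ∈ I₂.minimalPrimes, ∀ 𝔮 ∈ I₂.minimalPrimes, 𝔭 = 𝔮)
    (𝔭 Q : Ideal 𝓡) [Q.IsPrime] (hlamQ : lam ∈ Q)
    (hQ₂ : I₂ ≤ Q) (hQ : ∀ 𝔭' ∈ I₁.minimalPrimes, 𝔭' ≤ Q → 𝔭' = 𝔭) :
    𝔭 ∈ (RingHom.ker (patched π hπ hker X₁)).minimalPrimes := by
  set ρ₁ := patched π hπ hker X₁ with hρ₁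
  set ρ₂ := patched π hπ hker X₂ with hρ₂
  have s₁ : HasScalars ρ₁ := patched_hasScalars π hπ hker X₁ h₁
  have s₂ : HasScalars ρ₂ := patched_hasScalars π hπ hker X₂ h₂
  have hk₁ : I₁ ≤ RingHom.ker ρ₁ := fun r hr =>
    RingHom.mem_ker.2 (patched_eq_zero π hπ hker X₁ fun n => hI₁ n r hr)
  have hk₂ : I₂ ≤ RingHom.ker ρ₂ := fun r hr =>
    RingHom.mem_ker.2 (patched_eq_zero π hπ hker X₂ fun n => hI₂ n r hr)
  have hl₂ : ρ₂ lam = Matrix.scalar (Fin d) lamS := patched_eq_scalar π hπ hker X₂ hlam₂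
  have hc : ∀ r i j, ρ₁ r i j - ρ₂ r i j ∈ Ideal.span {lamS} := by
    intro r i j
    refine patched_congr π hπ hker X₁ X₂ _ (fun n r i j => ?_) r i j
    obtain ⟨b, hb⟩ := hcongr n r i j
    rw [hb]
    exact Ideal.mul_mem_right _ _ (Ideal.mem_map_of_mem _ (Ideal.mem_span_singleton_self _))
  have hker₂Q : RingHom.ker ρ₂ ≤ Q := ker_le_of_unique ρ₂ s₂ hN hk₂ hdim₂ huniq Q hQ₂
  refine avoid ρ₁ ρ₂ s₁ s₂ (Ideal.span {lamS}) hc hN hk₁ hk₂ hdim₁ hdim₂ huniq 𝔭 Q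
    ?_ hQ₂ hQ
  intro x s hxs hs
  obtain ⟨t, rfl⟩ := Ideal.mem_span_singleton'.1 hs
  obtain ⟨y, hy⟩ := s₂ t
  have : x - y * lam ∈ Q := by
    apply hker₂Q
    rw [RingHom.mem_ker, map_sub, map_mul, hxs, hy, hl₂, ← map_mul, sub_self]
  have h2 := add_mem this (Ideal.mul_mem_left _ y hlamQ)
  rwa [sub_add_cancel] at h2

/-- **Ihara avoidance** (matrix form): there is a characteristic zero point of the Hecke algebra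
of level zero on the component `𝔭`. -/
theorem ihara_avoidance
    -- rings of diamond/framing variables
    (π : ∀ n, S →+* B n) (hπ : ∀ n, Function.Surjective (π n))
    (hker : ∀ k : ℕ, ∃ n₀, ∀ n ≥ n₀, RingHom.ker (π n) ≤ maximalIdeal S ^ k)
    (ε : S →+* O) (hε : Function.Surjective ε) (εB : ∀ n, B n →+* O)
    (hεB : ∀ n, (εB n).comp (π n) = ε)
    {N : ℕ} (hN : ringKrullDim S = N)
    -- the two families of modules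
    (X₁ X₂ : ∀ n, 𝓡 →+* Matrix (Fin d) (Fin d) (B n))
    (h₁ : ∀ n s, ∃ r, X₁ n r = Matrix.scalar (Fin d) (π n s))
    (h₂ : ∀ n s, ∃ r, X₂ n r = Matrix.scalar (Fin d) (π n s))
    (X₀ : 𝓡 →+* Matrix (Fin d) (Fin d) O)
    (hX₀ : ∀ n r, (εB n).mapMatrix (X₁ n r) = X₀ r)
    -- congruence modulo `λ`
    (lamS : S) (lam : 𝓡) (hlam₁ : ∀ n, X₁ n lam = Matrix.scalar (Fin d) (π n lamS))
    (hlam₂ : ∀ n, X₂ n lam = Matrix.scalar (Fin d) (π n lamS))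
    (hlam0 : ε lamS ≠ 0)
    (hcongr : ∀ n r i j, ∃ b, X₁ n r i j - X₂ n r i j = π n lamS * b)
    -- local rings
    (I₁ I₂ : Ideal 𝓡) (hI₁ : ∀ n, ∀ r ∈ I₁, X₁ n r = 0) (hI₂ : ∀ n, ∀ r ∈ I₂, X₂ n r = 0)
    (hdim₁ : ∀ 𝔭' ∈ I₁.minimalPrimes, ringKrullDim (𝓡 ⧸ 𝔭') ≤ N)
    (hdim₂ : ∀ 𝔭' ∈ I₂.minimalPrimes, ringKrullDim (𝓡 ⧸ 𝔭') ≤ N)
    (huniq : ∀ 𝔭 ∈ I₂.minimalPrimes, ∀ 𝔮 ∈ I₂.minimalPrimes, 𝔭 = 𝔮)
    (𝔭 Q : Ideal 𝓡) [Q.IsPrime] (hlamQ : lam ∈ Q)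
    (hQ₂ : I₂ ≤ Q) (hQ : ∀ 𝔭' ∈ I₁.minimalPrimes, 𝔭' ≤ Q → 𝔭' = 𝔭) :
    ∃ P : Ideal 𝓡, P.IsPrime ∧ 𝔭 ≤ P ∧ RingHom.ker X₀ ≤ P ∧ lam ∉ P ∧
      ∀ (r : 𝓡) (s : S), (∀ n, X₁ n r = Matrix.scalar (Fin d) (π n s)) → (r ∈ P ↔ ε s = 0) := by
  have h𝔭 := mem_minimalPrimes_patched π hπ hker hN X₁ X₂ h₁ h₂ lamS lam hlam₂ hcongr
    I₁ I₂ hI₁ hI₂ hdim₁ hdim₂ huniq 𝔭 Q hlamQ hQ₂ hQ
  obtain ⟨P, hP1, hP2, hP3, hP4⟩ := exists_point _ (patched_hasScalars π hπ hker X₁ h₁) h𝔭 ε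
  refine ⟨P, hP1, hP2, ?_, ?_, ?_⟩
  · intro r hr
    apply hP3
    rw [patched_map π hπ hker X₁ ε hε εB hεB X₀ hX₀ r]
    exact hr
  · rw [hP4 lam lamS (patched_eq_scalar π hπ hker X₁ hlam₁)]
    exact hlam0
  · intro r s hrs
    exact hP4 r s (patched_eq_scalar π hπ hker X₁ hrs)

omit [IsDomain S] [IsDomain O] [NeZero d] in
/-- points of the level-zero deformation ring lying in the support of the patched module
factor through the Hecke algebra -/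
theorem ker_X₀_le
    (π : ∀ n, S →+* B n) (hπ : ∀ n, Function.Surjective (π n))
    (hker : ∀ k : ℕ, ∃ n₀, ∀ n ≥ n₀, RingHom.ker (π n) ≤ maximalIdeal S ^ k)
    (ε : S →+* O) (hε : Function.Surjective ε) (εB : ∀ n, B n →+* O)
    (hεB : ∀ n, (εB n).comp (π n) = ε)
    {R₀ : Type*} [CommRing R₀] [CNL R₀] (θ : 𝓡 →+* R₀) [IsLocalHom θ] (ι : O →+* R₀)
    (X : ∀ n, 𝓡 →+* Matrix (Fin d) (Fin d) (B n))
    (h₁ : ∀ n s, ∃ r, X n r = Matrix.scalar (Fin d) (π n s) ∧ θ r = ι (ε s))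
    (X₀ : 𝓡 →+* Matrix (Fin d) (Fin d) O)
    (hX₀ : ∀ n r, (εB n).mapMatrix (X n r) = X₀ r)
    (P : Ideal 𝓡) [P.IsPrime] (h1 : RingHom.ker (patched π hπ hker X) ≤ P)
    (hθ : RingHom.ker θ ≤ P) :
    RingHom.ker X₀ ≤ P := by
  set ρ := patched π hπ hker X with hρ
  have hs : ∀ s, ∃ r, ρ r = Matrix.scalar (Fin d) s ∧ θ r = ι (ε s) := by
    intro s
    choose r hr using fun n => h₁ n s
    refine ⟨ulim UF r, limHom_ulim_eq fun n => ?_, map_ulim_eq θ fun n => (hr n).2⟩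
    ext i j
    rw [lvl_apply, (hr n).1]
    rw [RingEquiv.symm_apply_eq]
    simp only [Matrix.scalar_apply, RingHom.mapMatrix_apply, Matrix.map_apply]
    by_cases hij : i = j
    · subst hij
      rw [Matrix.diagonal_apply_eq, Matrix.diagonal_apply_eq, quotEquiv_mk]
    · rw [Matrix.diagonal_apply_ne _ hij, Matrix.diagonal_apply_ne _ hij, map_zero, map_zero]
  have s₁ : HasScalars ρ := fun s => ⟨(hs s).choose, (hs s).choose_spec.1⟩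
  intro r hr
  refine mem_of_entries_mem ρ s₁ (RingHom.ker ε) P h1 (fun x s hxs hsε => ?_) fun i j => ?_
  · obtain ⟨y, hy1, hy2⟩ := hs s
    have h2 : y ∈ P := hθ (by rw [RingHom.mem_ker, hy2, RingHom.mem_ker.1 hsε, map_zero])
    have h3 : x - y ∈ P := h1 (by rw [RingHom.mem_ker, map_sub, hxs, hy1, sub_self])
    have := add_mem h3 h2
    rwa [sub_add_cancel] at this
  · have h4 := patched_map π hπ hker X ε hε εB hεB X₀ hX₀ r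
    rw [RingHom.mem_ker.1 hr] at h4
    have := congrFun (congrFun h4 i) j
    rw [RingHom.mem_ker]
    simpa using this

omit [IsDomain O] in
/-- **Ihara avoidance, lifting form** (`R = T`): every point of the level-zero deformation ring
on the component `𝔭` factors through the Hecke algebra of level zero. -/
theorem ihara_avoidance_lifting
    (π : ∀ n, S →+* B n) (hπ : ∀ n, Function.Surjective (π n))
    (hker : ∀ k : ℕ, ∃ n₀, ∀ n ≥ n₀, RingHom.ker (π n) ≤ maximalIdeal S ^ k)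
    (ε : S →+* O) (hε : Function.Surjective ε) (εB : ∀ n, B n →+* O)
    (hεB : ∀ n, (εB n).comp (π n) = ε)
    {N : ℕ} (hN : ringKrullDim S = N)
    {R₀ : Type*} [CommRing R₀] [CNL R₀] (θ : 𝓡 →+* R₀) [IsLocalHom θ] (ι : O →+* R₀)
    (X₁ X₂ : ∀ n, 𝓡 →+* Matrix (Fin d) (Fin d) (B n))
    (h₁ : ∀ n s, ∃ r, X₁ n r = Matrix.scalar (Fin d) (π n s) ∧ θ r = ι (ε s))
    (h₂ : ∀ n s, ∃ r, X₂ n r = Matrix.scalar (Fin d) (π n s))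
    (X₀ : 𝓡 →+* Matrix (Fin d) (Fin d) O)
    (hX₀ : ∀ n r, (εB n).mapMatrix (X₁ n r) = X₀ r)
    (lamS : S) (lam : 𝓡)
    (hlam₂ : ∀ n, X₂ n lam = Matrix.scalar (Fin d) (π n lamS))
    (hcongr : ∀ n r i j, ∃ b, X₁ n r i j - X₂ n r i j = π n lamS * b)
    (I₁ I₂ : Ideal 𝓡) (hI₁ : ∀ n, ∀ r ∈ I₁, X₁ n r = 0) (hI₂ : ∀ n, ∀ r ∈ I₂, X₂ n r = 0)
    (hdim₁ : ∀ 𝔭' ∈ I₁.minimalPrimes, ringKrullDim (𝓡 ⧸ 𝔭') ≤ N)
    (hdim₂ : ∀ 𝔭' ∈ I₂.minimalPrimes, ringKrullDim (𝓡 ⧸ 𝔭') ≤ N)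
    (huniq : ∀ 𝔭 ∈ I₂.minimalPrimes, ∀ 𝔮 ∈ I₂.minimalPrimes, 𝔭 = 𝔮)
    (𝔭 Q : Ideal 𝓡) [Q.IsPrime] (hlamQ : lam ∈ Q)
    (hQ₂ : I₂ ≤ Q) (hQ : ∀ 𝔭' ∈ I₁.minimalPrimes, 𝔭' ≤ Q → 𝔭' = 𝔭)
    (P : Ideal 𝓡) [P.IsPrime] (hP : 𝔭 ≤ P) (hθ : RingHom.ker θ ≤ P) :
    RingHom.ker X₀ ≤ P := by
  have h𝔭 := mem_minimalPrimes_patched π hπ hker hN X₁ X₂
    (fun n s => ⟨(h₁ n s).choose, (h₁ n s).choose_spec.1⟩) h₂ lamS lam hlam₂ hcongr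
    I₁ I₂ hI₁ hI₂ hdim₁ hdim₂ huniq 𝔭 Q hlamQ hQ₂ hQ
  exact ker_X₀_le π hπ hker ε hε εB hεB θ ι X₁ h₁ X₀ hX₀ P (h𝔭.1.2.trans hP) hθ

omit [IsDomain O] in
/-- **Irreducible case**: every prime of `𝓡` containing `I` and `ker θ` contains `ker X₀`. -/
theorem irreducible_case
    (π : ∀ n, S →+* B n) (hπ : ∀ n, Function.Surjective (π n))
    (hker : ∀ k : ℕ, ∃ n₀, ∀ n ≥ n₀, RingHom.ker (π n) ≤ maximalIdeal S ^ k)
    (ε : S →+* O) (hε : Function.Surjective ε) (εB : ∀ n, B n →+* O)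
    (hεB : ∀ n, (εB n).comp (π n) = ε)
    {N : ℕ} (hN : ringKrullDim S = N)
    {R₀ : Type*} [CommRing R₀] [CNL R₀] (θ : 𝓡 →+* R₀) [IsLocalHom θ] (ι : O →+* R₀)
    (X : ∀ n, 𝓡 →+* Matrix (Fin d) (Fin d) (B n))
    (h₁ : ∀ n s, ∃ r, X n r = Matrix.scalar (Fin d) (π n s) ∧ θ r = ι (ε s))
    (X₀ : 𝓡 →+* Matrix (Fin d) (Fin d) O)
    (hX₀ : ∀ n r, (εB n).mapMatrix (X n r) = X₀ r)
    (I : Ideal 𝓡) (hI : ∀ n, ∀ r ∈ I, X n r = 0)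
    (hdim : ∀ 𝔭' ∈ I.minimalPrimes, ringKrullDim (𝓡 ⧸ 𝔭') ≤ N)
    (huniq : ∀ 𝔭 ∈ I.minimalPrimes, ∀ 𝔮 ∈ I.minimalPrimes, 𝔭 = 𝔮)
    (P : Ideal 𝓡) [P.IsPrime] (hP : I ≤ P) (hθ : RingHom.ker θ ≤ P) :
    RingHom.ker X₀ ≤ P := by
  have s₁ : HasScalars (patched π hπ hker X) := patched_hasScalars π hπ hker X
    (fun n s => ⟨(h₁ n s).choose, (h₁ n s).choose_spec.1⟩)
  have hk : I ≤ RingHom.ker (patched π hπ hker X) := fun r hr =>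
    RingHom.mem_ker.2 (patched_eq_zero π hπ hker X fun n => hI n r hr)
  have h1 : RingHom.ker (patched π hπ hker X) ≤ P :=
    ker_le_of_unique _ s₁ hN hk hdim huniq P hP
  exact ker_X₀_le π hπ hker ε hε εB hεB θ ι X h₁ X₀ hX₀ P h1 hθ

/-! ### Variants: every minimal prime of `I₂` is contained in `Q` -/

/-- Ihara avoidance: the component `𝔭` is in the support of the patched module. -/
theorem mem_minimalPrimes_patched'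
    (π : ∀ n, S →+* B n) (hπ : ∀ n, Function.Surjective (π n))
    (hker : ∀ k : ℕ, ∃ n₀, ∀ n ≥ n₀, RingHom.ker (π n) ≤ maximalIdeal S ^ k)
    {N : ℕ} (hN : ringKrullDim S = N)
    (X₁ X₂ : ∀ n, 𝓡 →+* Matrix (Fin d) (Fin d) (B n))
    (h₁ : ∀ n s, ∃ r, X₁ n r = Matrix.scalar (Fin d) (π n s))
    (h₂ : ∀ n s, ∃ r, X₂ n r = Matrix.scalar (Fin d) (π n s))
    (lamS : S) (lam : 𝓡) (hlam₂ : ∀ n, X₂ n lam = Matrix.scalar (Fin d) (π n lamS))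
    (hcongr : ∀ n r i j, ∃ b, X₁ n r i j - X₂ n r i j = π n lamS * b)
    (I₁ I₂ : Ideal 𝓡) (hI₁ : ∀ n, ∀ r ∈ I₁, X₁ n r = 0) (hI₂ : ∀ n, ∀ r ∈ I₂, X₂ n r = 0)
    (hdim₁ : ∀ 𝔭' ∈ I₁.minimalPrimes, ringKrullDim (𝓡 ⧸ 𝔭') ≤ N)
    (hdim₂ : ∀ 𝔭' ∈ I₂.minimalPrimes, ringKrullDim (𝓡 ⧸ 𝔭') ≤ N)
    (𝔭 Q : Ideal 𝓡) [Q.IsPrime] (hlamQ : lam ∈ Q)
    (hQ₂ : ∀ 𝔮 ∈ I₂.minimalPrimes, 𝔮 ≤ Q) (hQ : ∀ 𝔭' ∈ I₁.minimalPrimes, 𝔭' ≤ Q → 𝔭' = 𝔭) :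
    𝔭 ∈ (RingHom.ker (patched π hπ hker X₁)).minimalPrimes := by
  set ρ₁ := patched π hπ hker X₁ with hρ₁
  set ρ₂ := patched π hπ hker X₂ with hρ₂
  have s₁ : HasScalars ρ₁ := patched_hasScalars π hπ hker X₁ h₁
  have s₂ : HasScalars ρ₂ := patched_hasScalars π hπ hker X₂ h₂
  have hk₁ : I₁ ≤ RingHom.ker ρ₁ := fun r hr =>
    RingHom.mem_ker.2 (patched_eq_zero π hπ hker X₁ fun n => hI₁ n r hr)
  have hk₂ : I₂ ≤ RingHom.ker ρ₂ := fun r hr =>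
    RingHom.mem_ker.2 (patched_eq_zero π hπ hker X₂ fun n => hI₂ n r hr)
  have hl₂ : ρ₂ lam = Matrix.scalar (Fin d) lamS := patched_eq_scalar π hπ hker X₂ hlam₂
  have hc : ∀ r i j, ρ₁ r i j - ρ₂ r i j ∈ Ideal.span {lamS} := by
    intro r i j
    refine patched_congr π hπ hker X₁ X₂ _ (fun n r i j => ?_) r i j
    obtain ⟨b, hb⟩ := hcongr n r i j
    rw [hb]
    exact Ideal.mul_mem_right _ _ (Ideal.mem_map_of_mem _ (Ideal.mem_span_singleton_self _))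
  have hker₂Q : RingHom.ker ρ₂ ≤ Q := ker_le_of_forall ρ₂ s₂ hN hk₂ hdim₂ Q hQ₂
  have hJ : ∀ (x : 𝓡) (s : S), ρ₂ x = Matrix.scalar (Fin d) s → s ∈ Ideal.span {lamS} →
      x ∈ Q := by
    intro x s hxs hs
    obtain ⟨t, rfl⟩ := Ideal.mem_span_singleton'.1 hs
    obtain ⟨y, hy⟩ := s₂ t
    have : x - y * lam ∈ Q := by
      apply hker₂Q
      rw [RingHom.mem_ker, map_sub, map_mul, hxs, hy, hl₂, ← map_mul, sub_self]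
    have h2 := add_mem this (Ideal.mul_mem_left _ y hlamQ)
    rwa [sub_add_cancel] at h2
  have h4 : RingHom.ker ρ₁ ≤ Q := ker_le_of_congr ρ₁ ρ₂ s₂ (Ideal.span {lamS}) hc Q hker₂Q hJ
  obtain ⟨𝔮, h𝔮, h𝔮Q⟩ := Ideal.exists_minimalPrimes_le h4
  have h𝔮' := mem_minimalPrimes_of_dim ρ₁ s₁ hN hk₁ hdim₁ h𝔮
  rw [← hQ 𝔮 h𝔮' h𝔮Q]
  exact h𝔮

/-- **Ihara avoidance** (matrix form): there is a characteristic zero point of the Hecke algebra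
of level zero on the component `𝔭`. -/
theorem ihara_avoidance'
    -- rings of diamond/framing variables
    (π : ∀ n, S →+* B n) (hπ : ∀ n, Function.Surjective (π n))
    (hker : ∀ k : ℕ, ∃ n₀, ∀ n ≥ n₀, RingHom.ker (π n) ≤ maximalIdeal S ^ k)
    (ε : S →+* O) (hε : Function.Surjective ε) (εB : ∀ n, B n →+* O)
    (hεB : ∀ n, (εB n).comp (π n) = ε)
    {N : ℕ} (hN : ringKrullDim S = N)
    -- the two families of modules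
    (X₁ X₂ : ∀ n, 𝓡 →+* Matrix (Fin d) (Fin d) (B n))
    (h₁ : ∀ n s, ∃ r, X₁ n r = Matrix.scalar (Fin d) (π n s))
    (h₂ : ∀ n s, ∃ r, X₂ n r = Matrix.scalar (Fin d) (π n s))
    (X₀ : 𝓡 →+* Matrix (Fin d) (Fin d) O)
    (hX₀ : ∀ n r, (εB n).mapMatrix (X₁ n r) = X₀ r)
    -- congruence modulo `λ`
    (lamS : S) (lam : 𝓡) (hlam₁ : ∀ n, X₁ n lam = Matrix.scalar (Fin d) (π n lamS))
    (hlam₂ : ∀ n, X₂ n lam = Matrix.scalar (Fin d) (π n lamS))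
    (hlam0 : ε lamS ≠ 0)
    (hcongr : ∀ n r i j, ∃ b, X₁ n r i j - X₂ n r i j = π n lamS * b)
    -- local rings
    (I₁ I₂ : Ideal 𝓡) (hI₁ : ∀ n, ∀ r ∈ I₁, X₁ n r = 0) (hI₂ : ∀ n, ∀ r ∈ I₂, X₂ n r = 0)
    (hdim₁ : ∀ 𝔭' ∈ I₁.minimalPrimes, ringKrullDim (𝓡 ⧸ 𝔭') ≤ N)
    (hdim₂ : ∀ 𝔭' ∈ I₂.minimalPrimes, ringKrullDim (𝓡 ⧸ 𝔭') ≤ N)
    (𝔭 Q : Ideal 𝓡) [Q.IsPrime] (hlamQ : lam ∈ Q)
    (hQ₂ : ∀ 𝔮 ∈ I₂.minimalPrimes, 𝔮 ≤ Q) (hQ : ∀ 𝔭' ∈ I₁.minimalPrimes, 𝔭' ≤ Q → 𝔭' = 𝔭) :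
    ∃ P : Ideal 𝓡, P.IsPrime ∧ 𝔭 ≤ P ∧ RingHom.ker X₀ ≤ P ∧ lam ∉ P ∧
      ∀ (r : 𝓡) (s : S), (∀ n, X₁ n r = Matrix.scalar (Fin d) (π n s)) → (r ∈ P ↔ ε s = 0) := by
  have h𝔭 := mem_minimalPrimes_patched' π hπ hker hN X₁ X₂ h₁ h₂ lamS lam hlam₂ hcongr
    I₁ I₂ hI₁ hI₂ hdim₁ hdim₂ 𝔭 Q hlamQ hQ₂ hQ
  obtain ⟨P, hP1, hP2, hP3, hP4⟩ := exists_point _ (patched_hasScalars π hπ hker X₁ h₁) h𝔭 ε
  refine ⟨P, hP1, hP2, ?_, ?_, ?_⟩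
  · intro r hr
    apply hP3
    rw [patched_map π hπ hker X₁ ε hε εB hεB X₀ hX₀ r]
    exact hr
  · rw [hP4 lam lamS (patched_eq_scalar π hπ hker X₁ hlam₁)]
    exact hlam0
  · intro r s hrs
    exact hP4 r s (patched_eq_scalar π hπ hker X₁ hrs)

omit [IsDomain O] in
/-- **Ihara avoidance, lifting form** (`R = T`): every point of the level-zero deformation ring
on the component `𝔭` factors through the Hecke algebra of level zero. -/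
theorem ihara_avoidance_lifting'
    (π : ∀ n, S →+* B n) (hπ : ∀ n, Function.Surjective (π n))
    (hker : ∀ k : ℕ, ∃ n₀, ∀ n ≥ n₀, RingHom.ker (π n) ≤ maximalIdeal S ^ k)
    (ε : S →+* O) (hε : Function.Surjective ε) (εB : ∀ n, B n →+* O)
    (hεB : ∀ n, (εB n).comp (π n) = ε)
    {N : ℕ} (hN : ringKrullDim S = N)
    {R₀ : Type*} [CommRing R₀] [CNL R₀] (θ : 𝓡 →+* R₀) [IsLocalHom θ] (ι : O →+* R₀)
    (X₁ X₂ : ∀ n, 𝓡 →+* Matrix (Fin d) (Fin d) (B n))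
    (h₁ : ∀ n s, ∃ r, X₁ n r = Matrix.scalar (Fin d) (π n s) ∧ θ r = ι (ε s))
    (h₂ : ∀ n s, ∃ r, X₂ n r = Matrix.scalar (Fin d) (π n s))
    (X₀ : 𝓡 →+* Matrix (Fin d) (Fin d) O)
    (hX₀ : ∀ n r, (εB n).mapMatrix (X₁ n r) = X₀ r)
    (lamS : S) (lam : 𝓡)
    (hlam₂ : ∀ n, X₂ n lam = Matrix.scalar (Fin d) (π n lamS))
    (hcongr : ∀ n r i j, ∃ b, X₁ n r i j - X₂ n r i j = π n lamS * b)
    (I₁ I₂ : Ideal 𝓡) (hI₁ : ∀ n, ∀ r ∈ I₁, X₁ n r = 0) (hI₂ : ∀ n, ∀ r ∈ I₂, X₂ n r = 0)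
    (hdim₁ : ∀ 𝔭' ∈ I₁.minimalPrimes, ringKrullDim (𝓡 ⧸ 𝔭') ≤ N)
    (hdim₂ : ∀ 𝔭' ∈ I₂.minimalPrimes, ringKrullDim (𝓡 ⧸ 𝔭') ≤ N)
    (𝔭 Q : Ideal 𝓡) [Q.IsPrime] (hlamQ : lam ∈ Q)
    (hQ₂ : ∀ 𝔮 ∈ I₂.minimalPrimes, 𝔮 ≤ Q) (hQ : ∀ 𝔭' ∈ I₁.minimalPrimes, 𝔭' ≤ Q → 𝔭' = 𝔭)
    (P : Ideal 𝓡) [P.IsPrime] (hP : 𝔭 ≤ P) (hθ : RingHom.ker θ ≤ P) :
    RingHom.ker X₀ ≤ P := by
  have h𝔭 := mem_minimalPrimes_patched' π hπ hker hN X₁ X₂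
    (fun n s => ⟨(h₁ n s).choose, (h₁ n s).choose_spec.1⟩) h₂ lamS lam hlam₂ hcongr
    I₁ I₂ hI₁ hI₂ hdim₁ hdim₂ 𝔭 Q hlamQ hQ₂ hQ
  exact ker_X₀_le π hπ hker ε hε εB hεB θ ι X₁ h₁ X₀ hX₀ P (h𝔭.1.2.trans hP) hθ

end Final

end Fermat.Agent.TWPatch
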