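import Mathlib
import Fermat.Agent.TWPatch.Main
import Fermat.Prelude.Thm_IsLocalRing_isAdicComplete_of_module_finite

/-!
# Complete noetherian local rings: power series, quotients, dimension
-/

set_option autoImplicit false
set_option linter.style.haveILetI false

namespace Fermat.Agent.TWPatch

open IsLocalRing

section One

variable {A : Type*} [CommRing A] [IsLocalRing A]

theorem ps_mem_maximalIdeal {f : PowerSeries A} :
    f ∈ maximalIdeal (PowerSeries A) ↔ PowerSeries.constantCoeff f ∈ maximalIdeal A := by
  rw [mem_maximalIdeal, mem_nonunits_iff, mem_maximalIdeal, mem_nonunits_iff,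
    PowerSeries.isUnit_iff_constantCoeff]

variable (A) in
/-- the coefficientwise description of the powers of the maximal ideal -/
def psF (k : ℕ) : Ideal (PowerSeries A) where
  carrier := {f | ∀ i, PowerSeries.coeff i f ∈ maximalIdeal A ^ (k - i)}
  add_mem' := by
    intro f g hf hg i
    rw [map_add]
    exact add_mem (hf i) (hg i)
  zero_mem' := by
    intro i
    rw [map_zero]
    exact zero_mem _
  smul_mem' := by
    intro c f hf i
    rw [smul_eq_mul, PowerSeries.coeff_mul]
    refine Ideal.sum_mem _ fun jl hjl => ?_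
    have h := Finset.HasAntidiagonal.mem_antidiagonal.1 hjl
    refine Ideal.mul_mem_left _ _ (Ideal.pow_le_pow_right ?_ (hf jl.2))
    omega

theorem mem_psF {k : ℕ} {f : PowerSeries A} :
    f ∈ psF A k ↔ ∀ i, PowerSeries.coeff i f ∈ maximalIdeal A ^ (k - i) := Iff.rfl

theorem pow_le_psF (k : ℕ) : maximalIdeal (PowerSeries A) ^ k ≤ psF A k := by
  induction k with
  | zero =>
    intro f _ i
    rw [Nat.zero_sub, pow_zero, Ideal.one_eq_top]
    trivial
  | succ k ih =>
    rw [pow_succ']
    refine (Ideal.mul_mono_right ih).trans ?_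
    rw [Ideal.mul_le]
    intro f hf g hg i
    rw [PowerSeries.coeff_mul]
    refine Ideal.sum_mem _ fun jl hjl => ?_
    have h := Finset.HasAntidiagonal.mem_antidiagonal.1 hjl
    by_cases hj : jl.1 = 0
    · have h1 : PowerSeries.coeff jl.1 f ∈ maximalIdeal A := by
        rw [hj, PowerSeries.coeff_zero_eq_constantCoeff_apply]
        exact ps_mem_maximalIdeal.1 hf
      have h2 := Ideal.mul_mem_mul h1 (hg jl.2)
      rw [← pow_succ'] at h2
      refine Ideal.pow_le_pow_right ?_ h2
      omega
    · refine Ideal.mul_mem_left _ _ (Ideal.pow_le_pow_right ?_ (hg jl.2))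
      omega

theorem X_mem_maximalIdeal : (PowerSeries.X : PowerSeries A) ∈ maximalIdeal (PowerSeries A) := by
  rw [ps_mem_maximalIdeal, PowerSeries.constantCoeff_X]
  exact zero_mem _

theorem C_mem_pow {a : A} {k : ℕ} (ha : a ∈ maximalIdeal A ^ k) :
    PowerSeries.C a ∈ maximalIdeal (PowerSeries A) ^ k := by
  have h1 : (maximalIdeal A).map (PowerSeries.C (R := A)) ≤ maximalIdeal (PowerSeries A) := by
    rw [Ideal.map_le_iff_le_comap]
    intro x hx
    rw [Ideal.mem_comap, ps_mem_maximalIdeal, PowerSeries.constantCoeff_C]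
    exact hx
  have h2 := Ideal.mem_map_of_mem (PowerSeries.C (R := A)) ha
  rw [Ideal.map_pow] at h2
  exact Ideal.pow_right_mono h1 k h2

theorem psF_le_pow (k : ℕ) : psF A k ≤ maximalIdeal (PowerSeries A) ^ k := by
  intro f hf
  have h1 : PowerSeries.X ^ k ∣ f - ∑ i ∈ Finset.range k,
      PowerSeries.C (PowerSeries.coeff i f) * PowerSeries.X ^ i := by
    rw [PowerSeries.X_pow_dvd_iff]
    intro m hm
    rw [map_sub, map_sum]
    simp only [PowerSeries.coeff_C_mul, PowerSeries.coeff_X_pow]
    rw [Finset.sum_eq_single m]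
    · simp
    · intro b _ hb
      rw [if_neg (Ne.symm hb), mul_zero]
    · intro h
      exact absurd (Finset.mem_range.2 hm) h
  obtain ⟨g, hg⟩ := h1
  have h2 : f = ∑ i ∈ Finset.range k,
      PowerSeries.C (PowerSeries.coeff i f) * PowerSeries.X ^ i + PowerSeries.X ^ k * g := by
    rw [← hg]; ring
  rw [h2]
  refine add_mem (Ideal.sum_mem _ fun i hi => ?_) ?_
  · have h3 := Ideal.mul_mem_mul (C_mem_pow (hf i))
      (Ideal.pow_mem_pow (X_mem_maximalIdeal (A := A)) i)
    rw [← pow_add] at h3
    have : k - i + i = k := by have := Finset.mem_range.1 hi; omega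
    rwa [this] at h3
  · exact Ideal.mul_mem_right _ _ (Ideal.pow_mem_pow X_mem_maximalIdeal k)

theorem maximalIdeal_pow_eq_psF (k : ℕ) : maximalIdeal (PowerSeries A) ^ k = psF A k :=
  le_antisymm (pow_le_psF k) (psF_le_pow k)

end One

/-- completeness of local rings from lifting of Cauchy sequences -/
theorem isAdicComplete_of_lim {B : Type*} [CommRing B] [IsLocalRing B] [IsNoetherianRing B]
    (h : ∀ f : ℕ → B, (∀ n, f (n + 1) - f n ∈ maximalIdeal B ^ n) →
      ∃ L : B, ∀ n, f n - L ∈ maximalIdeal B ^ n) :
    IsAdicComplete (maximalIdeal B) B := by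
  haveI h1 : IsHausdorff (maximalIdeal B) B := by
    rw [isHausdorff_iff]
    intro x hx
    have h3 : x ∈ (⨅ k : ℕ, maximalIdeal B ^ k) := by
      rw [Submodule.mem_iInf]
      intro k
      have := hx k
      rw [SModEq.zero, smul_eq_mul, Ideal.mul_top] at this
      exact this
    rw [Ideal.iInf_pow_eq_bot_of_isLocalRing _ (Ideal.IsPrime.ne_top inferInstance)] at h3
    exact h3
  haveI h2 : IsPrecomplete (maximalIdeal B) B := by
    rw [isPrecomplete_iff]
    intro f hf
    obtain ⟨L, hL⟩ := h f (fun n => by
      have := (hf (Nat.le_succ n)).symm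
      rw [SModEq.sub_mem, smul_eq_mul, Ideal.mul_top] at this
      exact this)
    refine ⟨L, fun n => ?_⟩
    rw [SModEq.sub_mem, smul_eq_mul, Ideal.mul_top]
    exact hL n
  exact { }

/-- limits exist -/
theorem exists_lim {A : Type*} [CommRing A] [CNL A] (f : ℕ → A)
    (hf : ∀ n, f (n + 1) - f n ∈ maximalIdeal A ^ n) :
    ∃ L : A, ∀ n, f n - L ∈ maximalIdeal A ^ n := by
  have hf' : ∀ m n, m ≤ n → f n - f m ∈ maximalIdeal A ^ m := by
    intro m n hmn
    induction n, hmn using Nat.le_induction with
    | base => rw [sub_self]; exact zero_mem _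
    | succ n hmn ih =>
      have e : f (n + 1) - f m = (f (n + 1) - f n) + (f n - f m) := by ring
      rw [e]
      exact add_mem (Ideal.pow_le_pow_right hmn (hf n)) ih
  obtain ⟨L, hL⟩ := IsPrecomplete.prec' (I := maximalIdeal A) (f := f) (by
    intro m n hmn
    rw [SModEq.sub_mem, smul_eq_mul, Ideal.mul_top, ← neg_mem_iff, neg_sub]
    exact hf' m n hmn)
  refine ⟨L, fun n => ?_⟩
  have := hL n
  rwa [SModEq.sub_mem, smul_eq_mul, Ideal.mul_top] at this

/-- power series rings over complete noetherian local rings -/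
theorem cnl_powerSeries (A : Type*) [CommRing A] [CNL A] : CNL (PowerSeries A) where
  isLocal := inferInstance
  isNoeth := inferInstance
  isCompl := by
    apply isAdicComplete_of_lim
    intro f hf
    have h1 : ∀ i, ∃ L : A, ∀ n, PowerSeries.coeff i (f (n + i)) - L ∈ maximalIdeal A ^ n := by
      intro i
      refine exists_lim (fun n => PowerSeries.coeff i (f (n + i))) fun n => ?_
      have h2 := hf (n + i)
      rw [maximalIdeal_pow_eq_psF, mem_psF] at h2
      have h3 := h2 i
      rw [map_sub, Nat.add_sub_cancel] at h3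
      have e : n + 1 + i = n + i + 1 := by ring
      rw [e]
      exact h3
    choose L hL using h1
    refine ⟨PowerSeries.mk L, fun n => ?_⟩
    rw [maximalIdeal_pow_eq_psF, mem_psF]
    intro i
    rw [map_sub, PowerSeries.coeff_mk]
    by_cases hi : i < n
    · have := hL i (n - i)
      have e : n - i + i = n := by omega
      rwa [e] at this
    · have : n - i = 0 := by omega
      rw [this, pow_zero, Ideal.one_eq_top]
      trivial
  finRes := by
    haveI : Finite (A ⧸ maximalIdeal A) := CNL.finRes (A := A)
    let g : PowerSeries A ⧸ maximalIdeal (PowerSeries A) → A ⧸ maximalIdeal A :=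
      Ideal.quotientMap _ (PowerSeries.constantCoeff (R := A)) (fun f hf => by
        rw [Ideal.mem_comap]; exact ps_mem_maximalIdeal.1 hf)
    have hg : Function.Injective g := by
      apply Ideal.quotientMap_injective'
      intro f hf
      rw [Ideal.mem_comap] at hf
      exact ps_mem_maximalIdeal.2 hf
    exact Finite.of_injective g hg

/-- quotients of complete noetherian local rings -/
theorem CNL.of_surjective {A B : Type*} [CommRing A] [CNL A] [CommRing B] [Nontrivial B]
    (f : A →+* B) (hf : Function.Surjective f) : CNL B := by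
  haveI h1 : IsLocalRing B := IsLocalRing.of_surjective' f hf
  haveI h2 : IsNoetherianRing B := isNoetherianRing_of_surjective A B f hf
  have hmap : (maximalIdeal A).map f = maximalIdeal B :=
    IsLocalRing.map_maximalIdeal_of_surjective f hf
  refine ⟨h1, h2, ?_, ?_⟩
  · apply isAdicComplete_of_lim
    intro g hg
    have h3 : ∀ n, ∃ x ∈ maximalIdeal A ^ n, f x = g (n + 1) - g n := by
      intro n
      have := hg n
      rw [← hmap, ← Ideal.map_pow, Ideal.mem_map_iff_of_surjective f hf] at this
      exact this
    choose x hx hx2 using h3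
    obtain ⟨a₀, ha₀⟩ := hf (g 0)
    let a : ℕ → A := fun n => a₀ + ∑ i ∈ Finset.range n, x i
    have ha : ∀ n, f (a n) = g n := by
      intro n
      induction n with
      | zero => simp [a, ha₀]
      | succ n ih =>
        have e : a (n + 1) = a n + x n := by
          simp only [a, Finset.sum_range_succ]; ring
        rw [e, map_add, ih, hx2]; ring
    obtain ⟨L, hL⟩ := exists_lim a (fun n => by
      have e : a (n + 1) - a n = x n := by
        simp only [a, Finset.sum_range_succ]; ring
      rw [e]; exact hx n)
    refine ⟨f L, fun n => ?_⟩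
    rw [← ha n, ← map_sub, ← hmap, ← Ideal.map_pow]
    exact Ideal.mem_map_of_mem _ (hL n)
  · haveI : Finite (A ⧸ maximalIdeal A) := CNL.finRes (A := A)
    let g : A ⧸ maximalIdeal A → B ⧸ maximalIdeal B :=
      Ideal.quotientMap _ f (by rw [← Ideal.map_le_iff_le_comap, hmap])
    have hg : Function.Surjective g := by
      intro y
      obtain ⟨b, rfl⟩ := Ideal.Quotient.mk_surjective y
      obtain ⟨a, rfl⟩ := hf b
      exact ⟨Ideal.Quotient.mk _ a, rfl⟩
    exact Finite.of_surjective g hg

theorem CNL.of_ringEquiv {A B : Type*} [CommRing A] [CNL A] [CommRing B]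
    (e : A ≃+* B) : CNL B := by
  haveI : Nontrivial B := e.symm.toEquiv.nontrivial
  exact CNL.of_surjective (e : A →+* B) e.surjective

theorem CNL.quotient {A : Type*} [CommRing A] [CNL A] {I : Ideal A} (hI : I ≠ ⊤) :
    CNL (A ⧸ I) := by
  haveI : Nontrivial (A ⧸ I) := Ideal.Quotient.nontrivial_iff.2 hI
  exact CNL.of_surjective (Ideal.Quotient.mk I) Ideal.Quotient.mk_surjective

/-- local finite algebras -/
theorem CNL.of_finite {O T : Type*} [CommRing O] [CNL O] [CommRing T] [Algebra O T]
    [Module.Finite O T] [IsLocalRing T] : CNL T := by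
  haveI : IsLocalHom (algebraMap O T) := by
    haveI : Algebra.IsIntegral O T := inferInstance
    have h1 : ((maximalIdeal T).comap (algebraMap O T)).IsMaximal :=
      Ideal.isMaximal_comap_of_isIntegral_of_isMaximal (maximalIdeal T)
    have h2 := IsLocalRing.eq_maximalIdeal h1
    constructor
    intro x hx
    by_contra h
    have h3 : x ∈ maximalIdeal O := h
    rw [← h2, Ideal.mem_comap] at h3
    exact h3 hx
  refine ⟨inferInstance, IsNoetherianRing.of_finite O T, ?_, ?_⟩
  · exact IsLocalRing.isAdicComplete_of_module_finite (𝒪 := O)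
  · haveI : Finite (O ⧸ maximalIdeal O) := CNL.finRes (A := O)
    letI : Algebra (ResidueField O) (ResidueField T) := inferInstance
    haveI : Module.Finite (ResidueField O) (ResidueField T) := inferInstance
    haveI : Finite (ResidueField O) := CNL.finRes
    exact Module.finite_of_finite (ResidueField O)

instance (A : Type*) [CommRing A] [CNL A] : CNL (PowerSeries A) := cnl_powerSeries A

instance cnl_mvPowerSeries (A : Type*) [CommRing A] [CNL A] (n : ℕ) :
    CNL (MvPowerSeries (Fin n) A) := by
  induction n with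
  | zero =>
    haveI : Nontrivial (MvPowerSeries (Fin 0) A) :=
      (MvPowerSeries.constantCoeff (σ := Fin 0) (R := A)).domain_nontrivial
    refine CNL.of_surjective (MvPowerSeries.C (σ := Fin 0) (R := A)) fun f => ?_
    refine ⟨MvPowerSeries.constantCoeff f, ?_⟩
    ext m
    have : m = 0 := Subsingleton.elim _ _
    rw [this]
    simp
  | succ n ih =>
    haveI := ih
    exact CNL.of_ringEquiv (MvPowerSeries.finSuccEquiv A n).symm.toRingEquiv

/-- Krull dimension of power series rings -/
theorem ringKrullDim_powerSeries (A : Type*) [CommRing A] [CNL A] :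
    ringKrullDim (PowerSeries A) = ringKrullDim A + 1 := by
  have h1 : (PowerSeries.X : PowerSeries A) ∈ nonZeroDivisors (PowerSeries A) := by
    rw [mem_nonZeroDivisors_iff_right]
    intro f hf
    ext n
    have := congrArg (PowerSeries.coeff (n + 1)) hf
    rwa [PowerSeries.coeff_succ_mul_X, map_zero] at this
  rw [← ringKrullDim_quotient_span_singleton_succ_eq_ringKrullDim_of_mem_nonZeroDivisors h1
    X_mem_maximalIdeal]
  congr 1
  have hk : RingHom.ker (PowerSeries.constantCoeff (R := A)) = Ideal.span {PowerSeries.X} := by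
    ext f
    rw [RingHom.mem_ker, Ideal.mem_span_singleton, PowerSeries.X_dvd_iff]
  exact ringKrullDim_eq_of_ringEquiv ((Ideal.quotEquivOfEq hk.symm).trans
    (RingHom.quotientKerEquivOfSurjective PowerSeries.constantCoeff_surj))

theorem ringKrullDim_mvPowerSeries (A : Type*) [CommRing A] [CNL A] (n : ℕ) :
    ringKrullDim (MvPowerSeries (Fin n) A) = ringKrullDim A + n := by
  induction n with
  | zero =>
    have e : A ≃+* MvPowerSeries (Fin 0) A := RingEquiv.ofBijective
      (MvPowerSeries.C (σ := Fin 0) (R := A)) ⟨fun a b h => by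
        have := congrArg MvPowerSeries.constantCoeff h
        simpa using this, fun f => ⟨MvPowerSeries.constantCoeff f, by
        ext m
        have : m = 0 := Subsingleton.elim _ _
        rw [this]
        simp⟩⟩
    rw [← ringKrullDim_eq_of_ringEquiv e]
    simp
  | succ n ih =>
    rw [ringKrullDim_eq_of_ringEquiv (MvPowerSeries.finSuccEquiv A n).toRingEquiv,
      ringKrullDim_powerSeries, ih, Nat.cast_add, Nat.cast_one, add_assoc]

instance isDomain_mvPowerSeries (A : Type*) [CommRing A] [IsDomain A] (n : ℕ) :
    IsDomain (MvPowerSeries (Fin n) A) := by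
  haveI : Nontrivial (MvPowerSeries (Fin n) A) :=
    (MvPowerSeries.constantCoeff (σ := Fin n) (R := A)).domain_nontrivial
  exact NoZeroDivisors.to_isDomain _

/-- membership in the maximal ideal of a power series ring -/
theorem mvps_mem_maximalIdeal {A : Type*} [CommRing A] [CNL A] {n : ℕ}
    {f : MvPowerSeries (Fin n) A} : f ∈ maximalIdeal (MvPowerSeries (Fin n) A) ↔
      MvPowerSeries.constantCoeff f ∈ maximalIdeal A := by
  rw [mem_maximalIdeal, mem_nonunits_iff, mem_maximalIdeal, mem_nonunits_iff,
    MvPowerSeries.isUnit_iff_constantCoeff]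

/-- power series all of whose coefficients lie in `𝔪^k` lie in `𝔪^k` -/
theorem mvps_mem_pow {A : Type*} [CommRing A] [CNL A] {n k : ℕ} {f : MvPowerSeries (Fin n) A}
    (hf : ∀ m, MvPowerSeries.coeff m f ∈ maximalIdeal A ^ k) :
    f ∈ maximalIdeal (MvPowerSeries (Fin n) A) ^ k := by
  induction n with
  | zero =>
    have h1 : f = MvPowerSeries.C (MvPowerSeries.coeff 0 f) := by
      ext m
      have : m = 0 := Subsingleton.elim _ _
      rw [this]
      simp
    rw [h1]
    have h2 : (maximalIdeal A).map (MvPowerSeries.C (σ := Fin 0) (R := A)) ≤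
        maximalIdeal (MvPowerSeries (Fin 0) A) := by
      rw [Ideal.map_le_iff_le_comap]
      intro x hx
      rw [Ideal.mem_comap, mvps_mem_maximalIdeal, MvPowerSeries.constantCoeff_C]
      exact hx
    have h3 := Ideal.mem_map_of_mem (MvPowerSeries.C (σ := Fin 0) (R := A)) (hf 0)
    rw [Ideal.map_pow] at h3
    exact Ideal.pow_right_mono h2 k h3
  | succ n ih =>
    have h1 : MvPowerSeries.finSuccEquiv A n f ∈
        maximalIdeal (PowerSeries (MvPowerSeries (Fin n) A)) ^ k := by
      rw [maximalIdeal_pow_eq_psF, mem_psF]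
      intro i
      refine Ideal.pow_le_pow_right (Nat.sub_le k i) (ih fun m => ?_)
      rw [MvPowerSeries.coeff_coeff_finSuccEquiv]
      exact hf _
    have h2 := IsLocalRing.map_maximalIdeal_of_surjective
      ((MvPowerSeries.finSuccEquiv A n).symm : PowerSeries (MvPowerSeries (Fin n) A) →+*
        MvPowerSeries (Fin (n + 1)) A) (MvPowerSeries.finSuccEquiv A n).symm.surjective
    have h3 := Ideal.mem_map_of_mem
      ((MvPowerSeries.finSuccEquiv A n).symm : PowerSeries (MvPowerSeries (Fin n) A) →+*
        MvPowerSeries (Fin (n + 1)) A) h1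
    rw [Ideal.map_pow, h2] at h3
    have h4 : ((MvPowerSeries.finSuccEquiv A n).symm : PowerSeries (MvPowerSeries (Fin n) A) →+*
        MvPowerSeries (Fin (n + 1)) A) (MvPowerSeries.finSuccEquiv A n f) = f :=
      (MvPowerSeries.finSuccEquiv A n).symm_apply_apply f
    rwa [h4] at h3

/-- the kernel of a coefficientwise reduction is small -/
theorem ker_map_le {A B : Type*} [CommRing A] [CNL A] [CommRing B] (φ : A →+* B) {n k : ℕ}
    (h : RingHom.ker φ ≤ maximalIdeal A ^ k) :
    RingHom.ker (MvPowerSeries.map (σ := Fin n) φ) ≤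
      maximalIdeal (MvPowerSeries (Fin n) A) ^ k := by
  intro f hf
  refine mvps_mem_pow fun m => h ?_
  rw [RingHom.mem_ker] at hf ⊢
  rw [← MvPowerSeries.coeff_map, hf, map_zero]

end Fermat.Agent.TWPatch
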