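import Mathlib
import Fermat.Agent.TWPatch.Power

/-!
# Evaluation of power series in complete noetherian local rings
-/

set_option autoImplicit false
set_option linter.style.haveILetI false

namespace Fermat.Agent.TWPatch

open IsLocalRing

section One

variable {A B : Type*} [CommRing A] [CommRing B] [CNL B] (φ : A →+* B) {x : B}
  (hx : x ∈ maximalIdeal B)

/-- partial sums -/
noncomputable def psum (φ : A →+* B) (x : B) (f : PowerSeries A) (n : ℕ) : B :=
  ∑ i ∈ Finset.range n, φ (PowerSeries.coeff i f) * x ^ i

include hx in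
theorem exists_psum_lim (f : PowerSeries A) :
    ∃ L : B, ∀ n, psum φ x f n - L ∈ maximalIdeal B ^ n := by
  refine exists_lim _ fun n => ?_
  have e : psum φ x f (n + 1) - psum φ x f n = φ (PowerSeries.coeff n f) * x ^ n := by
    simp only [psum, Finset.sum_range_succ]; ring
  rw [e]
  exact Ideal.mul_mem_left _ _ (Ideal.pow_mem_pow hx n)

theorem psum_unique {f : PowerSeries A} {L L' : B}
    (h : ∀ n, psum φ x f n - L ∈ maximalIdeal B ^ n)
    (h' : ∀ n, psum φ x f n - L' ∈ maximalIdeal B ^ n) : L = L' := by
  refine eq_of_forall_sub_mem fun k => ?_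
  have e : L - L' = (psum φ x f k - L') - (psum φ x f k - L) := by ring
  rw [e]
  exact sub_mem (h' k) (h k)

include hx in
theorem psum_mul (f g : PowerSeries A) (n : ℕ) :
    psum φ x f n * psum φ x g n - psum φ x (f * g) n ∈ maximalIdeal B ^ n := by
  simp only [psum]
  have h1 : ∀ i ∈ Finset.range n, φ (PowerSeries.coeff i (f * g)) * x ^ i =
      ∑ jl ∈ Finset.HasAntidiagonal.antidiagonal i, (φ (PowerSeries.coeff jl.1 f) * x ^ jl.1) *
        (φ (PowerSeries.coeff jl.2 g) * x ^ jl.2) := by
    intro i _
    rw [PowerSeries.coeff_mul, map_sum, Finset.sum_mul]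
    refine Finset.sum_congr rfl fun jl hjl => ?_
    have h := Finset.HasAntidiagonal.mem_antidiagonal.1 hjl
    rw [map_mul, ← h, pow_add]
    ring
  rw [Finset.sum_congr rfl h1, Finset.sum_mul_sum, ← Finset.sum_product']
  set F : ℕ × ℕ → B := fun jl => (φ (PowerSeries.coeff jl.1 f) * x ^ jl.1) *
        (φ (PowerSeries.coeff jl.2 g) * x ^ jl.2) with hF
  have h2 : ∑ i ∈ Finset.range n, ∑ jl ∈ Finset.HasAntidiagonal.antidiagonal i, F jl =
      ∑ jl ∈ (Finset.range n ×ˢ Finset.range n).filter (fun jl => jl.1 + jl.2 < n), F jl := by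
    rw [Finset.sum_sigma']
    refine Finset.sum_bij' (fun a _ => a.2) (fun a _ => ⟨a.1 + a.2, a⟩) ?_ ?_ ?_ ?_ ?_
    · rintro ⟨i, j, l⟩ h
      simp only [Finset.mem_sigma, Finset.mem_range, Finset.HasAntidiagonal.mem_antidiagonal]
        at h
      simp only [Finset.mem_filter, Finset.mem_product, Finset.mem_range]
      omega
    · rintro ⟨j, l⟩ h
      simp only [Finset.mem_filter, Finset.mem_product, Finset.mem_range] at h
      simp only [Finset.mem_sigma, Finset.mem_range, Finset.HasAntidiagonal.mem_antidiagonal]
      exact ⟨h.2, trivial⟩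
    · rintro ⟨i, j, l⟩ h
      simp only [Finset.mem_sigma, Finset.mem_range, Finset.HasAntidiagonal.mem_antidiagonal]
        at h
      obtain ⟨_, rfl⟩ := h
      rfl
    · rintro ⟨j, l⟩ _
      rfl
    · rintro ⟨i, j, l⟩ _
      rfl
  rw [h2, ← Finset.sum_filter_add_sum_filter_not (Finset.range n ×ˢ Finset.range n)
    (fun jl => jl.1 + jl.2 < n) F, add_sub_cancel_left]
  refine Ideal.sum_mem _ fun jl hjl => ?_
  have h3 : n ≤ jl.1 + jl.2 := by
    have := (Finset.mem_filter.1 hjl).2
    omega
  have e : F jl = (φ (PowerSeries.coeff jl.1 f) * φ (PowerSeries.coeff jl.2 g)) *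
      x ^ (jl.1 + jl.2) := by
    rw [hF, pow_add]; ring
  rw [e]
  exact Ideal.mul_mem_left _ _ (Ideal.pow_le_pow_right h3 (Ideal.pow_mem_pow hx _))

/-- evaluation of power series in one variable -/
noncomputable def evalPS : PowerSeries A →+* B where
  toFun f := (exists_psum_lim φ hx f).choose
  map_one' := by
    refine psum_unique φ (f := 1) (exists_psum_lim φ hx 1).choose_spec fun n => ?_
    cases n with
    | zero => rw [pow_zero, Ideal.one_eq_top]; trivial
    | succ n =>
      have : psum φ x (1 : PowerSeries A) (n + 1) = 1 := by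
        simp only [psum, Finset.sum_range_succ']
        simp [PowerSeries.coeff_one]
      rw [this, sub_self]
      exact zero_mem _
  map_zero' := by
    refine psum_unique φ (f := 0) (exists_psum_lim φ hx 0).choose_spec fun n => ?_
    have : psum φ x (0 : PowerSeries A) n = 0 := by simp [psum]
    rw [this, sub_self]
    exact zero_mem _
  map_mul' f g := by
    refine psum_unique φ (f := f * g) (exists_psum_lim φ hx (f * g)).choose_spec fun n => ?_
    have h1 := (exists_psum_lim φ hx f).choose_spec n
    have h2 := (exists_psum_lim φ hx g).choose_spec n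
    have h3 := psum_mul φ hx f g n
    set a := (exists_psum_lim φ hx f).choose
    set b := (exists_psum_lim φ hx g).choose
    have e : psum φ x (f * g) n - a * b = (psum φ x f n - a) * psum φ x g n +
      a * (psum φ x g n - b) - (psum φ x f n * psum φ x g n - psum φ x (f * g) n) := by ring
    rw [e]
    exact sub_mem (add_mem (Ideal.mul_mem_right _ _ h1) (Ideal.mul_mem_left _ _ h2)) h3
  map_add' f g := by
    refine psum_unique φ (f := f + g) (exists_psum_lim φ hx (f + g)).choose_spec fun n => ?_
    have h1 := (exists_psum_lim φ hx f).choose_spec n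
    have h2 := (exists_psum_lim φ hx g).choose_spec n
    have e : psum φ x (f + g) n = psum φ x f n + psum φ x g n := by
      simp only [psum, map_add, add_mul, Finset.sum_add_distrib]
    have e2 : psum φ x (f + g) n - ((exists_psum_lim φ hx f).choose +
      (exists_psum_lim φ hx g).choose) = (psum φ x f n - (exists_psum_lim φ hx f).choose) +
      (psum φ x g n - (exists_psum_lim φ hx g).choose) := by rw [e]; ring
    rw [e2]
    exact add_mem h1 h2

theorem evalPS_spec (f : PowerSeries A) (n : ℕ) :
    psum φ x f n - evalPS φ hx f ∈ maximalIdeal B ^ n :=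
  (exists_psum_lim φ hx f).choose_spec n

theorem evalPS_C (a : A) : evalPS φ hx (PowerSeries.C a) = φ a := by
  refine psum_unique φ (f := PowerSeries.C a) (evalPS_spec φ hx _) fun n => ?_
  cases n with
  | zero => rw [pow_zero, Ideal.one_eq_top]; trivial
  | succ n =>
    have : psum φ x (PowerSeries.C a) (n + 1) = φ a := by
      simp only [psum, Finset.sum_range_succ']
      simp [PowerSeries.coeff_C]
    rw [this, sub_self]
    exact zero_mem _

theorem evalPS_X : evalPS φ hx (PowerSeries.X : PowerSeries A) = x := by
  refine psum_unique φ (f := PowerSeries.X) (evalPS_spec φ hx _) fun n => ?_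
  cases n with
  | zero => rw [pow_zero, Ideal.one_eq_top]; trivial
  | succ n =>
    cases n with
    | zero =>
      have : psum φ x (PowerSeries.X : PowerSeries A) (0 + 1) = 0 := by
        simp [psum, PowerSeries.coeff_X]
      rw [this, zero_sub, neg_mem_iff, zero_add, pow_one]
      exact hx
    | succ n =>
      have : psum φ x (PowerSeries.X : PowerSeries A) (n + 1 + 1) = x := by
        simp only [psum]
        rw [Finset.sum_eq_single 1]
        · simp
        · intro b _ hb
          rw [PowerSeries.coeff_X, if_neg hb, map_zero, zero_mul]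
        · intro h
          exact absurd (Finset.mem_range.2 (by omega)) h
      rw [this, sub_self]
      exact zero_mem _

theorem evalPS_isLocalHom [IsLocalRing A] [IsLocalHom φ] : IsLocalHom (evalPS φ hx) := by
  constructor
  intro f hf
  rw [PowerSeries.isUnit_iff_constantCoeff]
  have h1 := evalPS_spec φ hx f 1
  rw [pow_one] at h1
  have h2 : psum φ x f 1 = φ (PowerSeries.constantCoeff f) := by
    simp [psum]
  rw [h2] at h1
  have h3 : IsUnit (φ (PowerSeries.constantCoeff f)) := by
    by_contra h
    have h4 : φ (PowerSeries.constantCoeff f) ∈ maximalIdeal B := h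
    have h5 := sub_mem h4 h1
    rw [sub_sub_cancel] at h5
    exact h5 hf
  exact isUnit_of_map_unit φ _ h3

end One

section Many

/-- local homomorphisms out of power series rings exist -/
theorem exists_evalMv {A B : Type*} [CommRing A] [CNL A] [CommRing B] [CNL B]
    (φ : A →+* B) [IsLocalHom φ] {n : ℕ} (x : Fin n → B) (hx : ∀ i, x i ∈ maximalIdeal B) :
    ∃ Φ : MvPowerSeries (Fin n) A →+* B, IsLocalHom Φ ∧ (∀ a, Φ (MvPowerSeries.C a) = φ a) ∧
      ∀ i, Φ (MvPowerSeries.X i) = x i := by
  induction n with
  | zero =>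
    refine ⟨φ.comp (MvPowerSeries.constantCoeff (σ := Fin 0) (R := A)), ?_, ?_, fun i => i.elim0⟩
    · constructor
      intro f hf
      rw [MvPowerSeries.isUnit_iff_constantCoeff]
      exact isUnit_of_map_unit φ _ hf
    · intro a
      rw [RingHom.comp_apply, MvPowerSeries.constantCoeff_C]
  | succ n ih =>
    obtain ⟨Φ, h1, h2, h3⟩ := ih (fun i => x i.succ) (fun i => hx i.succ)
    haveI := h1
    let e := MvPowerSeries.finSuccEquiv A n
    refine ⟨(evalPS Φ (hx 0)).comp (e : MvPowerSeries (Fin (n + 1)) A →+*
      PowerSeries (MvPowerSeries (Fin n) A)), ?_, ?_, ?_⟩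
    · haveI := evalPS_isLocalHom Φ (hx 0)
      constructor
      intro f hf
      rw [RingHom.comp_apply] at hf
      have h4 := isUnit_of_map_unit (evalPS Φ (hx 0)) _ hf
      exact (MulEquiv.isUnit_map e).1 h4
    · intro a
      rw [RingHom.comp_apply]
      have h4 : (e : MvPowerSeries (Fin (n + 1)) A →+*
        PowerSeries (MvPowerSeries (Fin n) A)) (MvPowerSeries.C a) =
        PowerSeries.C (MvPowerSeries.C a) := MvPowerSeries.finSuccEquiv_C a
      rw [h4, evalPS_C, h2]
    · intro i
      rw [RingHom.comp_apply]
      refine Fin.cases ?_ (fun j => ?_) i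
      · have h4 : (e : MvPowerSeries (Fin (n + 1)) A →+*
          PowerSeries (MvPowerSeries (Fin n) A)) (MvPowerSeries.X 0) = PowerSeries.X :=
          MvPowerSeries.finSuccEquiv_X_zero
        rw [h4, evalPS_X]
      · have h4 : (e : MvPowerSeries (Fin (n + 1)) A →+*
          PowerSeries (MvPowerSeries (Fin n) A)) (MvPowerSeries.X j.succ) =
          PowerSeries.C (MvPowerSeries.X j) := MvPowerSeries.finSuccEquiv_X_succ j
        rw [h4, evalPS_C, h3]

theorem map_pow_mem {A B : Type*} [CommRing A] [IsLocalRing A] [CommRing B] [IsLocalRing B]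
    (φ : A →+* B) [IsLocalHom φ] {a : A} {k : ℕ} (ha : a ∈ maximalIdeal A ^ k) :
    φ a ∈ maximalIdeal B ^ k := by
  have h2 := Ideal.mem_map_of_mem φ ha
  rw [Ideal.map_pow] at h2
  exact Ideal.pow_right_mono (IsLocalRing.map_maximalIdeal_le φ) k h2

/-- local homomorphisms out of one-variable power series rings are determined by their values
on constants and on the variable -/
theorem ps_hom_ext {A B : Type*} [CommRing A] [IsLocalRing A] [CommRing B] [CNL B]
    (Φ Φ' : PowerSeries A →+* B) [IsLocalHom Φ] [IsLocalHom Φ']
    (hC : ∀ a, Φ (PowerSeries.C a) = Φ' (PowerSeries.C a))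
    (hX : Φ PowerSeries.X = Φ' PowerSeries.X) : Φ = Φ' := by
  ext1 f
  refine eq_of_forall_sub_mem fun k => ?_
  have h1 : PowerSeries.X ^ k ∣ f - ∑ i ∈ Finset.range k,
      PowerSeries.C (PowerSeries.coeff i f) * PowerSeries.X ^ i := by
    rw [PowerSeries.X_pow_dvd_iff]
    intro m hm
    rw [map_sub, map_sum]
    simp only [PowerSeries.coeff_C_mul, PowerSeries.coeff_X_pow]
    rw [Finset.sum_eq_single m]
    · simp
    · intro b _ hb
      rw [if_neg (Ne.symm hb), mul_zero]
    · intro h
      exact absurd (Finset.mem_range.2 hm) h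
  obtain ⟨g, hg⟩ := h1
  have h2 : f = ∑ i ∈ Finset.range k,
      PowerSeries.C (PowerSeries.coeff i f) * PowerSeries.X ^ i + PowerSeries.X ^ k * g := by
    rw [← hg]; ring
  have h3 : Φ (∑ i ∈ Finset.range k,
      PowerSeries.C (PowerSeries.coeff i f) * PowerSeries.X ^ i) =
      Φ' (∑ i ∈ Finset.range k,
      PowerSeries.C (PowerSeries.coeff i f) * PowerSeries.X ^ i) := by
    rw [map_sum, map_sum]
    refine Finset.sum_congr rfl fun i _ => ?_
    rw [map_mul, map_mul, map_pow, map_pow, hC, hX]
  have h4 : PowerSeries.X ^ k * g ∈ maximalIdeal (PowerSeries A) ^ k :=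
    Ideal.mul_mem_right _ _ (Ideal.pow_mem_pow X_mem_maximalIdeal k)
  rw [h2, map_add, map_add, h3, add_sub_add_left_eq_sub]
  exact sub_mem (map_pow_mem Φ h4) (map_pow_mem Φ' h4)

theorem mv_hom_ext {A B : Type*} [CommRing A] [CNL A] [CommRing B] [CNL B] {n : ℕ}
    (Φ Φ' : MvPowerSeries (Fin n) A →+* B) [IsLocalHom Φ] [IsLocalHom Φ']
    (hC : ∀ a, Φ (MvPowerSeries.C a) = Φ' (MvPowerSeries.C a))
    (hX : ∀ i, Φ (MvPowerSeries.X i) = Φ' (MvPowerSeries.X i)) : Φ = Φ' := by
  induction n with
  | zero =>
    ext1 f
    have h1 : f = MvPowerSeries.C (MvPowerSeries.coeff 0 f) := by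
      ext m
      have : m = 0 := Subsingleton.elim _ _
      rw [this]
      simp
    rw [h1]
    exact hC _
  | succ n ih =>
    let e := MvPowerSeries.finSuccEquiv A n
    let e' : PowerSeries (MvPowerSeries (Fin n) A) →+* MvPowerSeries (Fin (n + 1)) A := e.symm
    haveI : IsLocalHom e' := ⟨fun f hf => (MulEquiv.isUnit_map e.symm).1 hf⟩
    haveI hCl : IsLocalHom (PowerSeries.C (R := MvPowerSeries (Fin n) A)) := by
      constructor
      intro f hf
      rw [PowerSeries.isUnit_iff_constantCoeff, PowerSeries.constantCoeff_C] at hf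
      exact hf
    have key : Φ.comp e' = Φ'.comp e' := by
      haveI : IsLocalHom (Φ.comp e') := inferInstance
      haveI : IsLocalHom (Φ'.comp e') := inferInstance
      apply ps_hom_ext
      · have h5 : (Φ.comp e').comp (PowerSeries.C (R := MvPowerSeries (Fin n) A)) =
          (Φ'.comp e').comp (PowerSeries.C (R := MvPowerSeries (Fin n) A)) := by
          refine ih _ _ ?_ ?_
          · intro a
            have h6 : e' (PowerSeries.C (MvPowerSeries.C a)) = MvPowerSeries.C a := by
              change e.symm _ = _
              rw [AlgEquiv.symm_apply_eq]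
              exact (MvPowerSeries.finSuccEquiv_C a).symm
            simp only [RingHom.comp_apply]
            rw [h6]
            exact hC a
          · intro i
            have h6 : e' (PowerSeries.C (MvPowerSeries.X i)) = MvPowerSeries.X i.succ := by
              change e.symm _ = _
              rw [AlgEquiv.symm_apply_eq]
              exact (MvPowerSeries.finSuccEquiv_X_succ i).symm
            simp only [RingHom.comp_apply]
            rw [h6]
            exact hX _
        intro a
        exact RingHom.congr_fun h5 a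
      · have h6 : e' PowerSeries.X = MvPowerSeries.X 0 := by
          change e.symm _ = _
          rw [AlgEquiv.symm_apply_eq]
          exact MvPowerSeries.finSuccEquiv_X_zero.symm
        simp only [RingHom.comp_apply]
        rw [h6]
        exact hX 0
    ext1 f
    have h7 := RingHom.congr_fun key (e f)
    simp only [RingHom.comp_apply] at h7
    have h8 : e' (e f) = f := e.symm_apply_apply f
    rwa [h8] at h7

end Many

end Fermat.Agent.TWPatch
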