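import Mathlib
import Fermat.Agent.TWPatch.Eval

/-!
# Surjectivity criterion, framing, bases
-/

set_option autoImplicit false
set_option linter.style.haveILetI false

namespace Fermat.Agent.TWPatch

open IsLocalRing

/-- a local homomorphism of complete noetherian local rings which is surjective on residue
fields and on cotangent spaces is surjective -/
theorem surjective_of_cotangent {R B : Type*} [CommRing R] [CNL R] [CommRing B] [CNL B]
    (Φ : R →+* B) [IsLocalHom Φ] (hres : ∀ b : B, ∃ r, b - Φ r ∈ maximalIdeal B)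
    (hcot : maximalIdeal B ≤ (maximalIdeal R).map Φ ⊔ maximalIdeal B ^ 2) :
    Function.Surjective Φ := by
  have h1 : (maximalIdeal R).map Φ = maximalIdeal B := by
    apply le_antisymm (IsLocalRing.map_maximalIdeal_le Φ)
    apply Submodule.le_of_le_smul_of_le_jacobson_bot (I := maximalIdeal B)
      (IsNoetherian.noetherian _) (IsLocalRing.maximalIdeal_le_jacobson _)
    rw [smul_eq_mul, ← pow_two]
    exact hcot
  have h2 : ∀ n, ∀ b ∈ maximalIdeal B ^ n, ∃ r ∈ maximalIdeal R ^ n,
      b - Φ r ∈ maximalIdeal B ^ (n + 1) := by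
    intro n b hb
    rw [← h1, ← Ideal.map_pow] at hb
    refine Submodule.span_induction (p := fun b _ => ∃ r ∈ maximalIdeal R ^ n,
      b - Φ r ∈ maximalIdeal B ^ (n + 1)) ?_ ?_ ?_ ?_ hb
    · rintro _ ⟨r, hr, rfl⟩
      exact ⟨r, hr, by rw [sub_self]; exact zero_mem _⟩
    · exact ⟨0, zero_mem _, by rw [map_zero, sub_self]; exact zero_mem _⟩
    · rintro x y _ _ ⟨r, hr, hr2⟩ ⟨s, hs, hs2⟩
      refine ⟨r + s, add_mem hr hs, ?_⟩
      have e : x + y - Φ (r + s) = (x - Φ r) + (y - Φ s) := by rw [map_add]; ring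
      rw [e]; exact add_mem hr2 hs2
    · rintro c x _ ⟨r, hr, hr2⟩
      obtain ⟨t, ht⟩ := hres c
      refine ⟨t * r, Ideal.mul_mem_left _ _ hr, ?_⟩
      have e : c • x - Φ (t * r) = c * (x - Φ r) + (c - Φ t) * Φ r := by
        rw [map_mul, smul_eq_mul]; ring
      rw [e]
      refine add_mem (Ideal.mul_mem_left _ _ hr2) ?_
      rw [pow_succ']
      exact Ideal.mul_mem_mul ht (map_pow_mem Φ hr)
  intro b
  choose! g hg1 hg2 using h2
  let s : ℕ → R := fun n => Nat.rec 0 (fun n s => s + g n (b - Φ s)) n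
  have hs0 : s 0 = 0 := rfl
  have hs1 : ∀ n, s (n + 1) = s n + g n (b - Φ (s n)) := fun n => rfl
  have hs2 : ∀ n, b - Φ (s n) ∈ maximalIdeal B ^ n := by
    intro n
    induction n with
    | zero => rw [pow_zero, Ideal.one_eq_top]; trivial
    | succ n ih =>
      have e : b - Φ (s (n + 1)) = (b - Φ (s n)) - Φ (g n (b - Φ (s n))) := by
        rw [hs1, map_add]; ring
      rw [e]
      exact hg2 n _ ih
  obtain ⟨L, hL⟩ := exists_lim s (fun n => by
    rw [hs1, add_sub_cancel_left]
    exact hg1 n _ (hs2 n))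
  refine ⟨L, ?_⟩
  refine eq_of_forall_sub_mem fun n => ?_
  have e : Φ L - b = -((b - Φ (s n)) + Φ (s n - L)) := by rw [map_sub]; ring
  rw [e, neg_mem_iff]
  exact add_mem (hs2 n) (map_pow_mem Φ (hL n))

section Framing

variable {σ : Type*} {Λ : Type*} [CommRing Λ] {d : ℕ}

/-- power series of matrices to matrices of power series -/
noncomputable def psMat : MvPowerSeries σ (Matrix (Fin d) (Fin d) Λ) →+*
    Matrix (Fin d) (Fin d) (MvPowerSeries σ Λ) where
  toFun f := Matrix.of fun i j => (fun m => MvPowerSeries.coeff m f i j : MvPowerSeries σ Λ)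
  map_one' := by
    classical
    ext i j m
    change (MvPowerSeries.coeff m (1 : MvPowerSeries σ (Matrix (Fin d) (Fin d) Λ))) i j = _
    rw [MvPowerSeries.coeff_one]
    by_cases h2 : i = j
    · subst h2
      rw [Matrix.one_apply_eq, MvPowerSeries.coeff_one]
      split_ifs
      · exact Matrix.one_apply_eq i
      · rfl
    · rw [Matrix.one_apply_ne h2, map_zero]
      split_ifs
      · exact Matrix.one_apply_ne h2
      · rfl
  map_zero' := by
    ext i j m
    rfl
  map_mul' f g := by
    classical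
    ext i j m
    change MvPowerSeries.coeff m (f * g) i j = _
    rw [Matrix.mul_apply, map_sum, MvPowerSeries.coeff_mul, Matrix.sum_apply]
    simp only [MvPowerSeries.coeff_mul, Matrix.mul_apply]
    rw [Finset.sum_comm]
    rfl
  map_add' f g := by
    ext i j m
    rfl

theorem psMat_apply (f : MvPowerSeries σ (Matrix (Fin d) (Fin d) Λ)) (i j : Fin d)
    (m : σ →₀ ℕ) : MvPowerSeries.coeff m (psMat f i j) = MvPowerSeries.coeff m f i j := rfl

/-- base change to power series of a matrix algebra -/
noncomputable def frameHom {T : Type*} [CommRing T] (X : T →+* Matrix (Fin d) (Fin d) Λ) :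
    MvPowerSeries σ T →+* Matrix (Fin d) (Fin d) (MvPowerSeries σ Λ) :=
  psMat.comp (MvPowerSeries.map X)

theorem frameHom_coeff {T : Type*} [CommRing T] (X : T →+* Matrix (Fin d) (Fin d) Λ)
    (f : MvPowerSeries σ T) (i j : Fin d) (m : σ →₀ ℕ) :
    MvPowerSeries.coeff m (frameHom X f i j) = X (MvPowerSeries.coeff m f) i j := by
  rw [frameHom, RingHom.comp_apply, psMat_apply, MvPowerSeries.coeff_map]

/-- scalars: if `g : Λ' → Λ` and every `g s` is a scalar in the image of `X`, then the same
for the framed version -/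
theorem frameHom_scalar {T S : Type*} [CommRing T] [CommRing S]
    (X : T →+* Matrix (Fin d) (Fin d) Λ) (g : S →+* Λ)
    (h : ∀ s, ∃ t, X t = Matrix.scalar (Fin d) (g s)) (s : MvPowerSeries σ S) :
    ∃ t : MvPowerSeries σ T, frameHom X t = Matrix.scalar (Fin d) (MvPowerSeries.map g s) := by
  choose t ht using h
  let f : MvPowerSeries σ T := fun m => t (MvPowerSeries.coeff m s)
  have hf : ∀ m, MvPowerSeries.coeff m f = t (MvPowerSeries.coeff m s) := fun m => rfl
  refine ⟨f, ?_⟩
  ext i j m
  rw [frameHom_coeff, hf, ht]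
  by_cases hij : i = j
  · subst hij
    simp
  · simp [hij]

theorem frameHom_injective {T : Type*} [CommRing T] (X : T →+* Matrix (Fin d) (Fin d) Λ)
    (hX : Function.Injective X) : Function.Injective (frameHom (σ := σ) X) := by
  intro f g hfg
  refine MvPowerSeries.ext fun m => hX ?_
  ext i j
  rw [← frameHom_coeff, ← frameHom_coeff, hfg]

end Framing

section Bases

variable {Λ M : Type*} [CommRing Λ] [IsLocalRing Λ] [AddCommGroup M] [Module Λ M]
  [Module.Free Λ M] [Module.Finite Λ M]

/-- `d` elements generating a free module of rank `d` modulo an ideal in the maximal ideal form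
a basis -/
theorem exists_basis {d : ℕ} (hd : Module.finrank Λ M = d) (m : Fin d → M) (I : Ideal Λ)
    (hI : I ≤ maximalIdeal Λ)
    (h : ⊤ ≤ Submodule.span Λ (Set.range m) ⊔ I • (⊤ : Submodule Λ M)) :
    ∃ b : Module.Basis (Fin d) Λ M, ∀ i, b i = m i := by
  have h1 : ⊤ ≤ Submodule.span Λ (Set.range m) := by
    apply Submodule.le_of_le_smul_of_le_jacobson_bot (I := maximalIdeal Λ)
      Module.Finite.fg_top (IsLocalRing.maximalIdeal_le_jacobson _)
    exact h.trans (sup_le_sup le_rfl (Submodule.smul_mono_left hI))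
  let b₀ := (Module.finBasisOfFinrankEq Λ M hd)
  let f : M →ₗ[Λ] M := b₀.constr ℕ m
  have hf : Function.Surjective f := by
    rw [← LinearMap.range_eq_top, eq_top_iff]
    refine h1.trans (Submodule.span_le.2 ?_)
    rintro _ ⟨i, rfl⟩
    exact ⟨b₀ i, b₀.constr_basis ℕ m i⟩
  have hf2 : Function.Bijective f := ⟨OrzechProperty.injective_of_surjective_endomorphism f hf, hf⟩
  refine ⟨b₀.map (LinearEquiv.ofBijective f hf2), fun i => ?_⟩
  rw [Module.Basis.map_apply]
  exact b₀.constr_basis ℕ m i

end Bases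

end Fermat.Agent.TWPatch
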