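import Mathlib
import Fermat.Agent.TWPatch.Surj

/-!
# Group algebras of finite commutative `p`-groups over complete local rings
-/

set_option autoImplicit false
set_option linter.style.haveILetI false

namespace Fermat.Agent.TWPatch

open IsLocalRing

section Aug

variable (O : Type*) [CommRing O] (G : Type*) [CommGroup G]

/-- the augmentation -/
noncomputable def aug : MonoidAlgebra O G →ₐ[O] O := MonoidAlgebra.lift O O G 1

theorem aug_single (g : G) (a : O) : aug O G (MonoidAlgebra.single g a) = a := by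
  rw [aug, MonoidAlgebra.lift_single]
  simp

theorem aug_of (g : G) : aug O G (MonoidAlgebra.of O G g) = 1 := by
  rw [MonoidAlgebra.of_apply, aug_single]

variable {O G}

theorem pow_sub_mem {p : ℕ} [Fact p.Prime] {k : ℕ} (hG : ∀ g : G, g ^ p ^ k = 1)
    (x : MonoidAlgebra O G) :
    x ^ p ^ k - algebraMap O _ (aug O G x ^ p ^ k) ∈
      Ideal.span {(p : MonoidAlgebra O G)} := by
  induction x using MonoidAlgebra.induction_on with
  | of g =>
    rw [aug_of, one_pow, map_one, ← map_pow, hG, map_one, sub_self]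
    exact zero_mem _
  | add x y hx hy =>
    obtain ⟨r, hr⟩ := exists_add_pow_prime_pow_eq (Fact.out : p.Prime) x y k
    obtain ⟨r', hr'⟩ := exists_add_pow_prime_pow_eq (Fact.out : p.Prime)
      (aug O G x) (aug O G y) k
    rw [map_add, hr, hr', map_add, map_add, map_mul, map_mul, map_mul, map_natCast]
    have e : x ^ p ^ k + y ^ p ^ k + ↑p * x * y * r - (algebraMap O (MonoidAlgebra O G)
        (aug O G x ^ p ^ k) + algebraMap O (MonoidAlgebra O G) (aug O G y ^ p ^ k) +
        ↑p * algebraMap O (MonoidAlgebra O G) (aug O G x) *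
        algebraMap O (MonoidAlgebra O G) (aug O G y) *
        algebraMap O (MonoidAlgebra O G) r') =
        (x ^ p ^ k - algebraMap O (MonoidAlgebra O G) (aug O G x ^ p ^ k)) +
        (y ^ p ^ k - algebraMap O (MonoidAlgebra O G) (aug O G y ^ p ^ k)) +
        ↑p * (x * y * r - algebraMap O (MonoidAlgebra O G) (aug O G x) *
        algebraMap O (MonoidAlgebra O G) (aug O G y) *
        algebraMap O (MonoidAlgebra O G) r') := by ring
    rw [e]
    exact add_mem (add_mem hx hy) (Ideal.mul_mem_right _ _ (Ideal.mem_span_singleton_self _))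
  | smul a x hx =>
    have e : (a • x) ^ p ^ k - algebraMap O (MonoidAlgebra O G) (aug O G (a • x) ^ p ^ k) =
        algebraMap O (MonoidAlgebra O G) (a ^ p ^ k) *
        (x ^ p ^ k - algebraMap O (MonoidAlgebra O G) (aug O G x ^ p ^ k)) := by
      rw [Algebra.smul_def, map_mul, mul_pow, mul_pow, AlgHom.commutes, map_pow, map_mul,
        Algebra.algebraMap_self_apply, map_pow]
      ring
    rw [e]
    exact Ideal.mul_mem_left _ _ hx

/-- the augmentation is local -/
theorem aug_isLocalHom [Finite G] [IsLocalRing O] {p : ℕ} [Fact p.Prime]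
    (hp : (p : O) ∈ maximalIdeal O) {k : ℕ} (hG : ∀ g : G, g ^ p ^ k = 1) :
    IsLocalHom (aug O G).toRingHom := by
  constructor
  intro x hx
  have hx' : IsUnit (aug O G x) := hx
  have h1 := pow_sub_mem (O := O) hG x
  set u : O := aug O G x ^ p ^ k with hu
  have hu' : IsUnit u := hx'.pow _
  obtain ⟨v, hv⟩ := hu'.exists_left_inv
  obtain ⟨y, hy⟩ := Ideal.mem_span_singleton'.1 h1
  have h2 : x ^ p ^ k = algebraMap O (MonoidAlgebra O G) u + y * (p : MonoidAlgebra O G) := by
    rw [hy]; ring
  suffices h : IsUnit (x ^ p ^ k) by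
    exact (isUnit_pow_iff (pow_ne_zero _ (Fact.out : p.Prime).ne_zero)).1 h
  haveI : Module.Finite O (MonoidAlgebra O G) :=
    inferInstance
  set z := x ^ p ^ k with hz
  let N : Submodule O (MonoidAlgebra O G) := (Ideal.span {z}).restrictScalars O
  have h3 : (⊤ : Submodule O (MonoidAlgebra O G)) ≤ N := by
    apply Submodule.le_of_le_smul_of_le_jacobson_bot (I := maximalIdeal O)
      Module.Finite.fg_top (IsLocalRing.maximalIdeal_le_jacobson _)
    intro w _
    have e : w = w * algebraMap O (MonoidAlgebra O G) v * z +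
        (p : O) • (- (w * algebraMap O (MonoidAlgebra O G) v * y)) := by
      have e2 : algebraMap O (MonoidAlgebra O G) v * algebraMap O (MonoidAlgebra O G) u = 1 := by
        rw [← map_mul, hv, map_one]
      rw [Algebra.smul_def, map_natCast, h2]
      linear_combination (-w) * e2
    rw [e]
    refine add_mem (Submodule.mem_sup_left ?_) (Submodule.mem_sup_right ?_)
    · exact Ideal.mul_mem_left _ _ (Ideal.mem_span_singleton_self z)
    · exact Submodule.smul_mem_smul hp trivial
  have h4 : (1 : MonoidAlgebra O G) ∈ Ideal.span {z} := h3 (Submodule.mem_top)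
  obtain ⟨w, hw⟩ := Ideal.mem_span_singleton'.1 h4
  exact IsUnit.of_mul_eq_one_right w hw

theorem isLocalRing_monoidAlgebra [Finite G] [IsLocalRing O] {p : ℕ} [Fact p.Prime]
    (hp : (p : O) ∈ maximalIdeal O) {k : ℕ} (hG : ∀ g : G, g ^ p ^ k = 1) :
    IsLocalRing (MonoidAlgebra O G) := by
  haveI := aug_isLocalHom (O := O) (G := G) hp hG
  exact RingHom.domain_isLocalRing (aug O G).toRingHom

theorem cnl_monoidAlgebra [Finite G] [CNL O] {p : ℕ} [Fact p.Prime]
    (hp : (p : O) ∈ maximalIdeal O) {k : ℕ} (hG : ∀ g : G, g ^ p ^ k = 1) :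
    CNL (MonoidAlgebra O G) := by
  haveI := isLocalRing_monoidAlgebra (O := O) (G := G) hp hG
  haveI : Module.Finite O (MonoidAlgebra O G) :=
    inferInstance
  exact CNL.of_finite (O := O)

end Aug

section Diamond

variable (O : Type*) [CommRing O] [CNL O] (p : ℕ) [hpp : Fact p.Prime]
  (hp : (p : O) ∈ maximalIdeal O) (k r : ℕ)

/-- the group `(ℤ/p^k)^r` -/
abbrev DG : Type := Fin r → Multiplicative (ZMod (p ^ k))

omit hpp in
theorem DG_pow (g : DG p k r) : g ^ p ^ k = 1 := by
  funext i
  rw [Pi.pow_apply, Pi.one_apply]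
  apply Multiplicative.toAdd.injective
  rw [toAdd_pow, toAdd_one, nsmul_eq_mul, ZMod.natCast_self, zero_mul]

instance : NeZero (p ^ k) := ⟨pow_ne_zero _ hpp.out.ne_zero⟩

/-- the ring of diamond operators -/
abbrev DRing : Type _ := MonoidAlgebra O (DG p k r)

variable {p k r} in
/-- the generators -/
def dgen (j : Fin r) : DG p k r := Pi.mulSingle j (Multiplicative.ofAdd 1)

include hp in
theorem cnl_DRing : CNL (DRing O p k r) := cnl_monoidAlgebra hp (DG_pow p k r)

variable {p k r} in
theorem DG_eq_prod (g : DG p k r) : g = ∏ j, dgen j ^ (Multiplicative.toAdd (g j)).val := by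
  funext i
  rw [Finset.prod_apply, Finset.prod_eq_single i]
  · rw [Pi.pow_apply, dgen, Pi.mulSingle_eq_same]
    apply Multiplicative.toAdd.injective
    rw [toAdd_pow, toAdd_ofAdd, nsmul_eq_mul, mul_one, ZMod.natCast_zmod_val]
  · intro b _ hb
    rw [Pi.pow_apply, dgen, Pi.mulSingle_eq_of_ne (Ne.symm hb), one_pow]
  · intro h
    exact absurd (Finset.mem_univ _) h

include hp in
/-- the presentation `O[[y_1..y_r]] → O[(ℤ/p^k)^r]` -/
theorem exists_diamond : ∃ π : MvPowerSeries (Fin r) O →+* DRing O p k r, IsLocalHom π ∧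
    (∀ a, π (MvPowerSeries.C a) = algebraMap O _ a) ∧
    (∀ j, π (MvPowerSeries.X j) = MonoidAlgebra.of O _ (dgen j) - 1) ∧
    Function.Surjective π := by
  haveI := cnl_DRing O p hp k r
  haveI h0 := aug_isLocalHom (O := O) (G := DG p k r) hp (DG_pow p k r)
  have h1 : IsLocalHom (algebraMap O (DRing O p k r)) := by
    constructor
    intro a ha
    have := ha.map (aug O (DG p k r))
    rwa [AlgHom.commutes] at this
  have h2 : ∀ j : Fin r, (MonoidAlgebra.of O (DG p k r) (dgen j) - 1 : DRing O p k r) ∈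
      maximalIdeal (DRing O p k r) := by
    intro j
    by_contra h
    have h3 : IsUnit (MonoidAlgebra.of O (DG p k r) (dgen j) - 1 : DRing O p k r) := by
      by_contra h4
      exact h h4
    have h4 := h3.map (aug O (DG p k r))
    rw [map_sub, aug_of, map_one, sub_self] at h4
    exact not_isUnit_zero h4
  obtain ⟨π, h3, h4, h5⟩ := exists_evalMv (algebraMap O (DRing O p k r)) _ h2
  refine ⟨π, h3, h4, h5, ?_⟩
  have h6 : ∀ g : DG p k r, MonoidAlgebra.of O (DG p k r) g ∈ π.range := by
    intro g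
    rw [DG_eq_prod g, map_prod]
    refine Subring.prod_mem _ fun j _ => ?_
    rw [map_pow]
    refine Subring.pow_mem _ ?_ _
    refine ⟨MvPowerSeries.X j + 1, ?_⟩
    rw [map_add, h5, map_one, sub_add_cancel]
  intro x
  have h7 : x ∈ π.range := by
    induction x using MonoidAlgebra.induction_on with
    | of g => exact h6 g
    | add x y hx hy => exact Subring.add_mem _ hx hy
    | smul a x hx =>
      rw [Algebra.smul_def]
      exact Subring.mul_mem _ ⟨MvPowerSeries.C a, h4 a⟩ hx
  exact h7

omit hpp in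
/-- `(1+y)^{p^k} - 1 ∈ 𝔪^{k+1}` -/
theorem pow_sub_one_mem {A : Type*} [CommRing A] [IsLocalRing A]
    (hp : (p : A) ∈ maximalIdeal A) {u : A} (hu : u - 1 ∈ maximalIdeal A) (k : ℕ) :
    u ^ p ^ k - 1 ∈ maximalIdeal A ^ (k + 1) := by
  induction k with
  | zero => simpa using hu
  | succ k ih =>
    set v := u ^ p ^ k with hv
    have hv1 : v - 1 ∈ maximalIdeal A := Ideal.pow_le_self (Nat.succ_ne_zero k) ih
    have e : u ^ p ^ (k + 1) - 1 = (v - 1) * ∑ i ∈ Finset.range p, v ^ i := by
      rw [mul_geom_sum, hv, ← pow_mul, ← pow_succ]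
    have h2 : ∑ i ∈ Finset.range p, v ^ i ∈ maximalIdeal A := by
      have e2 : ∑ i ∈ Finset.range p, v ^ i = (p : A) + ∑ i ∈ Finset.range p, (v ^ i - 1) := by
        rw [Finset.sum_sub_distrib, Finset.sum_const, Finset.card_range, nsmul_eq_mul, mul_one]
        ring
      rw [e2]
      refine add_mem hp (Ideal.sum_mem _ fun i _ => ?_)
      rw [← mul_geom_sum]
      exact Ideal.mul_mem_right _ _ hv1
    rw [e, pow_succ]
    exact Ideal.mul_mem_mul ih h2

variable {O p r}

/-- the kernels of the diamond presentations are small -/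
theorem ker_diamond_le {k : ℕ} {π : MvPowerSeries (Fin r) O →+* DRing O p k r}
    (hl : IsLocalHom π) (hC : ∀ a, π (MvPowerSeries.C a) = algebraMap O _ a)
    (hX : ∀ j, π (MvPowerSeries.X j) = MonoidAlgebra.of O _ (dgen j) - 1)
    (hp : (p : O) ∈ maximalIdeal O) {m : ℕ} (hm : m ≤ k + 1) :
    RingHom.ker π ≤ maximalIdeal (MvPowerSeries (Fin r) O) ^ m := by
  rcases Nat.eq_zero_or_pos m with rfl | hm0
  · rw [pow_zero, Ideal.one_eq_top]; exact le_top
  set A := MvPowerSeries (Fin r) O with hA
  have htop : maximalIdeal A ^ m ≠ ⊤ := by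
    intro h
    have : maximalIdeal A = ⊤ := by
      rw [eq_top_iff, ← h]
      exact Ideal.pow_le_self hm0.ne'
    exact (Ideal.IsPrime.ne_top inferInstance) this
  haveI : CNL (A ⧸ maximalIdeal A ^ m) := CNL.quotient htop
  let q : A →+* A ⧸ maximalIdeal A ^ m := Ideal.Quotient.mk _
  haveI : IsLocalHom q := IsLocalHom.of_surjective q Ideal.Quotient.mk_surjective
  have hpA : (p : A) ∈ maximalIdeal A := by
    rw [mvps_mem_maximalIdeal, map_natCast]
    exact hp
  have hone : ∀ j : Fin r, q (1 + MvPowerSeries.X j) ^ p ^ k = 1 := by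
    intro j
    rw [← map_pow, ← sub_eq_zero, ← map_one q, ← map_sub]
    apply Ideal.Quotient.eq_zero_iff_mem.2
    refine Ideal.pow_le_pow_right hm (pow_sub_one_mem p hpA ?_ k)
    rw [add_sub_cancel_left, mvps_mem_maximalIdeal, MvPowerSeries.constantCoeff_X]
    exact zero_mem _
  let f : Fin r → Multiplicative (ZMod (p ^ k)) →* A ⧸ maximalIdeal A ^ m := fun j =>
    { toFun := fun g => q (1 + MvPowerSeries.X j) ^ (Multiplicative.toAdd g).val
      map_one' := by rw [toAdd_one, ZMod.val_zero, pow_zero]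
      map_mul' := fun a b => by
        rw [toAdd_mul, ZMod.val_add, ← pow_eq_pow_mod _ (hone j), pow_add] }
  let F : DG p k r →* A ⧸ maximalIdeal A ^ m :=
    ∏ j, (f j).comp (Pi.evalMonoidHom (fun _ => Multiplicative (ZMod (p ^ k))) j)
  have hF : ∀ j, F (dgen j) = q (1 + MvPowerSeries.X j) := by
    intro j
    change (∏ j, (f j).comp (Pi.evalMonoidHom (fun _ => Multiplicative (ZMod (p ^ k))) j))
      (dgen j) = _
    rw [MonoidHom.finsetProd_apply, Finset.prod_eq_single j]
    · rw [MonoidHom.comp_apply, Pi.evalMonoidHom_apply, dgen, Pi.mulSingle_eq_same]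
      change q (1 + MvPowerSeries.X j) ^ (Multiplicative.toAdd
        (Multiplicative.ofAdd (1 : ZMod (p ^ k)))).val = _
      rw [toAdd_ofAdd, ZMod.val_one_eq_one_mod, ← pow_eq_pow_mod _ (hone j), pow_one]
    · intro b _ hb
      rw [MonoidHom.comp_apply, Pi.evalMonoidHom_apply, dgen, Pi.mulSingle_eq_of_ne hb, map_one]
    · intro h
      exact absurd (Finset.mem_univ _) h
  let κ : DRing O p k r →ₐ[O] A ⧸ maximalIdeal A ^ m := MonoidAlgebra.lift O _ _ F
  haveI hOl : IsLocalHom (algebraMap O (A ⧸ maximalIdeal A ^ m)) := by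
    constructor
    intro a ha
    have h1 : IsUnit (q (MvPowerSeries.C a)) := ha
    have h2 := isUnit_of_map_unit q _ h1
    rw [MvPowerSeries.isUnit_iff_constantCoeff, MvPowerSeries.constantCoeff_C] at h2
    exact h2
  haveI hκ : IsLocalHom κ.toRingHom := by
    haveI := aug_isLocalHom (O := O) (G := DG p k r) hp (DG_pow p k r)
    constructor
    intro x hx
    have hx' : IsUnit (κ x) := hx
    have h1 := pow_sub_mem (O := O) (DG_pow p k r) x
    obtain ⟨y, hy⟩ := Ideal.mem_span_singleton'.1 h1
    have h2 := congrArg κ hy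
    rw [map_sub, map_mul, map_natCast, map_pow, AlgHom.commutes, map_pow] at h2
    have h3 : IsUnit (algebraMap O (A ⧸ maximalIdeal A ^ m) (aug O (DG p k r) x) ^ p ^ k) := by
      by_contra h
      have h4 : algebraMap O (A ⧸ maximalIdeal A ^ m) (aug O (DG p k r) x) ^ p ^ k ∈
        maximalIdeal (A ⧸ maximalIdeal A ^ m) := h
      have h5 : (p : A ⧸ maximalIdeal A ^ m) ∈ maximalIdeal (A ⧸ maximalIdeal A ^ m) := by
        rw [← map_natCast (algebraMap O (A ⧸ maximalIdeal A ^ m))]
        intro h6
        exact hp (isUnit_of_map_unit _ _ h6)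
      have h6 : κ x ^ p ^ k ∈ maximalIdeal (A ⧸ maximalIdeal A ^ m) := by
        have := add_mem (Ideal.mul_mem_left _ (κ y) h5) h4
        rw [h2, sub_add_cancel] at this
        exact this
      exact h6 (hx'.pow _)
    have h4 := (isUnit_pow_iff (pow_ne_zero k (Fact.out : p.Prime).ne_zero)).1 h3
    have h5 := isUnit_of_map_unit (algebraMap O (A ⧸ maximalIdeal A ^ m)) _ h4
    exact isUnit_of_map_unit (aug O (DG p k r)).toRingHom x h5
  have key : κ.toRingHom.comp π = q := by
    haveI : IsLocalHom (κ.toRingHom.comp π) := inferInstance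
    apply mv_hom_ext
    · intro a
      rw [RingHom.comp_apply, hC]
      change κ (algebraMap O _ a) = _
      rw [AlgHom.commutes]
      rfl
    · intro j
      rw [RingHom.comp_apply, hX]
      change κ (MonoidAlgebra.of O _ (dgen j) - 1) = _
      rw [map_sub, map_one, MonoidAlgebra.lift_of, hF, map_add, map_one, add_sub_cancel_left]
  intro x hx
  rw [RingHom.mem_ker] at hx
  have h1 : q x = 0 := by
    rw [← key, RingHom.comp_apply, hx, map_zero]
  exact Ideal.Quotient.eq_zero_iff_mem.1 h1

end Diamond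

end Fermat.Agent.TWPatch
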