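import Mathlib
import Fermat.Agent.TWPatch.Surj

/-!
# From modules to matrices
-/

set_option autoImplicit false
set_option linter.style.haveILetI false

namespace Fermat.Agent.TWPatch

open IsLocalRing

section Mat

variable {T Λ M : Type*} [CommRing T] [CommRing Λ] [AddCommGroup M] [Module Λ M] {d : ℕ}

/-- the matrix of an action in a basis -/
noncomputable def matHom (b : Module.Basis (Fin d) Λ M) (a : T →+* Module.End Λ M) :
    T →+* Matrix (Fin d) (Fin d) Λ :=
  ((LinearMap.toMatrixAlgEquiv b : Module.End Λ M ≃ₐ[Λ] Matrix (Fin d) (Fin d) Λ) :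
    Module.End Λ M →+* Matrix (Fin d) (Fin d) Λ).comp a

theorem matHom_apply (b : Module.Basis (Fin d) Λ M) (a : T →+* Module.End Λ M) (t : T)
    (i j : Fin d) : matHom b a t i j = b.repr (a t (b j)) i := by
  change LinearMap.toMatrixAlgEquiv b (a t) i j = _
  rw [LinearMap.toMatrixAlgEquiv_apply]

theorem matHom_eq_zero_iff (b : Module.Basis (Fin d) Λ M) (a : T →+* Module.End Λ M) (t : T) :
    matHom b a t = 0 ↔ a t = 0 := by
  change LinearMap.toMatrixAlgEquiv b (a t) = 0 ↔ _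
  exact map_eq_zero_iff _ (LinearMap.toMatrixAlgEquiv b).injective

theorem matHom_scalar (b : Module.Basis (Fin d) Λ M) (a : T →+* Module.End Λ M) {t : T} {s : Λ}
    (h : ∀ x, a t x = s • x) : matHom b a t = Matrix.scalar (Fin d) s := by
  ext i j
  rw [matHom_apply, h, map_smul, Finsupp.smul_apply, Module.Basis.repr_self, smul_eq_mul,
    Matrix.scalar_apply, Finsupp.single_apply, Matrix.diagonal_apply]
  by_cases hij : i = j
  · simp [hij]
  · simp [hij, Ne.symm hij]

theorem sum_matHom (b : Module.Basis (Fin d) Λ M) (a : T →+* Module.End Λ M) (t : T)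
    (j : Fin d) : a t (b j) = ∑ i, matHom b a t i j • b i := by
  simp only [matHom_apply]
  exact (b.sum_repr _).symm

end Mat

section Level

variable {T Λ O M₁ M₂ M₀ N : Type*} [CommRing T] [CommRing Λ] [IsLocalRing Λ] [CommRing O]
  [AddCommGroup M₁] [Module Λ M₁] [Module.Free Λ M₁] [Module.Finite Λ M₁]
  [AddCommGroup M₂] [Module Λ M₂] [Module.Free Λ M₂] [Module.Finite Λ M₂]
  [AddCommGroup M₀] [Module O M₀] [AddCommGroup N] [Module Λ N] {d : ℕ}

/-- lifting a basis along a reduction map -/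
theorem exists_basis_lift (hd : Module.finrank Λ M₁ = d) (ε : Λ →+* O)
    (hε : Function.Surjective ε) (hεl : RingHom.ker ε ≤ maximalIdeal Λ)
    (b₀ : Module.Basis (Fin d) O M₀) (π : M₁ →ₛₗ[ε] M₀) (hπ : Function.Surjective π)
    (hker : ∀ x, π x = 0 → x ∈ RingHom.ker ε • (⊤ : Submodule Λ M₁)) :
    ∃ b : Module.Basis (Fin d) Λ M₁, ∀ i, π (b i) = b₀ i := by
  choose m hm using fun i => hπ (b₀ i)
  obtain ⟨b, hb⟩ := exists_basis hd m (RingHom.ker ε) hεl (by
    intro x _
    choose c hc using fun i => hε (b₀.repr (π x) i)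
    have h1 : π (∑ i, c i • m i) = π x := by
      rw [map_sum]
      simp only [LinearMap.map_smulₛₗ, hm, hc]
      exact b₀.sum_repr _
    have h2 : x = ∑ i, c i • m i + (x - ∑ i, c i • m i) := by abel
    rw [h2]
    refine add_mem (Submodule.mem_sup_left ?_) (Submodule.mem_sup_right ?_)
    · exact Submodule.sum_mem _ fun i _ => Submodule.smul_mem _ _
        (Submodule.subset_span ⟨i, rfl⟩)
    · apply hker
      rw [map_sub, h1, sub_self])
  exact ⟨b, fun i => by rw [hb, hm]⟩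

omit [Module.Free Λ M₁] [Module.Finite Λ M₁] in
/-- matching bases along two reduction maps to the same module -/
theorem exists_basis_match (hd : Module.finrank Λ M₂ = d)
    {lam : Λ} (hlam : lam ∈ maximalIdeal Λ)
    (b : Module.Basis (Fin d) Λ M₁) (r₁ : M₁ →ₗ[Λ] N) (hr₁ : Function.Surjective r₁)
    (r₂ : M₂ →ₗ[Λ] N) (hr₂ : Function.Surjective r₂)
    (hker₂ : ∀ x, r₂ x = 0 → ∃ y, x = lam • y) :
    ∃ b' : Module.Basis (Fin d) Λ M₂, ∀ i, r₂ (b' i) = r₁ (b i) := by
  choose m hm using fun i => hr₂ (r₁ (b i))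
  obtain ⟨b', hb'⟩ := exists_basis hd m (Ideal.span {lam})
    ((Ideal.span_singleton_le_iff_mem _).2 hlam) (by
    intro x _
    obtain ⟨y, hy⟩ := hr₁ (r₂ x)
    have h1 : r₂ (∑ i, b.repr y i • m i) = r₂ x := by
      rw [map_sum]
      simp only [map_smul, hm]
      rw [← hy]
      conv_rhs => rw [← b.sum_repr y]
      rw [map_sum]
      simp only [map_smul]
    have h2 : x = ∑ i, b.repr y i • m i + (x - ∑ i, b.repr y i • m i) := by abel
    rw [h2]
    refine add_mem (Submodule.mem_sup_left ?_) (Submodule.mem_sup_right ?_)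
    · exact Submodule.sum_mem _ fun i _ => Submodule.smul_mem _ _
        (Submodule.subset_span ⟨i, rfl⟩)
    · obtain ⟨z, hz⟩ := hker₂ (x - ∑ i, b.repr y i • m i) (by rw [map_sub, h1, sub_self])
      rw [hz]
      exact Submodule.smul_mem_smul (Ideal.mem_span_singleton_self _) trivial)
  exact ⟨b', fun i => by rw [hb', hm]⟩

/-- **Level lemma.**  Compatible matrices for two modules congruent modulo `lam`, one of which
reduces to a fixed module of level zero. -/
theorem exists_level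
    (hd₁ : Module.finrank Λ M₁ = d) (hd₂ : Module.finrank Λ M₂ = d)
    (ε : Λ →+* O) (hε : Function.Surjective ε) (hεl : RingHom.ker ε ≤ maximalIdeal Λ)
    (b₀ : Module.Basis (Fin d) O M₀)
    (a₁ : T →+* Module.End Λ M₁) (a₂ : T →+* Module.End Λ M₂) (a₀ : T →+* Module.End O M₀)
    (aN : T → N → N)
    (π : M₁ →ₛₗ[ε] M₀) (hπ : Function.Surjective π)
    (hkerπ : ∀ x, π x = 0 → x ∈ RingHom.ker ε • (⊤ : Submodule Λ M₁))
    (hπa : ∀ t x, π (a₁ t x) = a₀ t (π x))
    {lam : Λ} (hlam : lam ∈ maximalIdeal Λ)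
    (r₁ : M₁ →ₗ[Λ] N) (hr₁ : Function.Surjective r₁) (hker₁ : ∀ x, r₁ x = 0 → ∃ y, x = lam • y)
    (r₂ : M₂ →ₗ[Λ] N) (hr₂ : Function.Surjective r₂) (hker₂ : ∀ x, r₂ x = 0 → ∃ y, x = lam • y)
    (hr₁a : ∀ t x, r₁ (a₁ t x) = aN t (r₁ x)) (hr₂a : ∀ t x, r₂ (a₂ t x) = aN t (r₂ x)) :
    ∃ X₁ X₂ : T →+* Matrix (Fin d) (Fin d) Λ,
      (∀ t, X₁ t = 0 ↔ a₁ t = 0) ∧ (∀ t, X₂ t = 0 ↔ a₂ t = 0) ∧
      (∀ t s, (∀ x, a₁ t x = s • x) → X₁ t = Matrix.scalar (Fin d) s) ∧
      (∀ t s, (∀ x, a₂ t x = s • x) → X₂ t = Matrix.scalar (Fin d) s) ∧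
      (∀ t, ε.mapMatrix (X₁ t) = matHom b₀ a₀ t) ∧
      (∀ t i j, ∃ c, X₁ t i j - X₂ t i j = lam * c) := by
  obtain ⟨b, hb⟩ := exists_basis_lift hd₁ ε hε hεl b₀ π hπ hkerπ
  obtain ⟨b', hb'⟩ := exists_basis_match hd₂ hlam b r₁ hr₁ r₂ hr₂ hker₂
  refine ⟨matHom b a₁, matHom b' a₂, fun t => matHom_eq_zero_iff _ _ _,
    fun t => matHom_eq_zero_iff _ _ _, fun t s h => matHom_scalar _ _ h,
    fun t s h => matHom_scalar _ _ h, ?_, ?_⟩
  · intro t
    ext i j
    rw [RingHom.mapMatrix_apply, Matrix.map_apply, matHom_apply b₀]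
    have h1 : a₀ t (b₀ j) = ∑ i, ε (matHom b a₁ t i j) • b₀ i := by
      rw [← hb j, ← hπa, sum_matHom b a₁ t j, map_sum]
      simp only [LinearMap.map_smulₛₗ, hb]
    rw [h1, map_sum, Finsupp.finsetSum_apply]
    simp only [map_smul, Finsupp.smul_apply, Module.Basis.repr_self, smul_eq_mul,
      Finsupp.single_apply]
    simp
  · intro t i j
    have h1 : r₁ (∑ i, (matHom b a₁ t i j - matHom b' a₂ t i j) • b i) = 0 := by
      have e1 : ∑ i, matHom b a₁ t i j • r₁ (b i) = aN t (r₁ (b j)) := by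
        rw [← hr₁a, sum_matHom b a₁ t j, map_sum]
        simp only [map_smul]
      have e2 : ∑ i, matHom b' a₂ t i j • r₁ (b i) = aN t (r₁ (b j)) := by
        rw [← hb' j, ← hr₂a, sum_matHom b' a₂ t j, map_sum]
        simp only [map_smul, hb']
      have e3 : ∑ i, (matHom b a₁ t i j - matHom b' a₂ t i j) • b i =
        ∑ i, matHom b a₁ t i j • b i - ∑ i, matHom b' a₂ t i j • b i := by
        rw [← Finset.sum_sub_distrib]
        exact Finset.sum_congr rfl fun i _ => sub_smul _ _ _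
      rw [e3, map_sub, map_sum, map_sum]
      simp only [map_smul]
      rw [e1, e2, sub_self]
    obtain ⟨y, hy⟩ := hker₁ _ h1
    refine ⟨b.repr y i, ?_⟩
    have h2 := congrArg (fun x => b.repr x i) hy
    simp only [map_sum, map_smul, Finsupp.finsetSum_apply, Finsupp.smul_apply,
      Module.Basis.repr_self, smul_eq_mul, Finsupp.single_apply] at h2
    simpa using h2

end Level

end Fermat.Agent.TWPatch
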